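import Mathlib
import Fermat.Prelude.Def_ModularCurve_X0ModL
import Fermat.Prelude.Def_ModularCurve_ArithmeticGalois
import Fermat.Agent.MU.S28.RedProps
import Fermat.Agent.MU.S28.Eval
import Fermat.Agent.S28.Residue
import Fermat.Agent.MU.S28.IntOver
import Fermat.Agent.MU.S28.DescentD1
import Fermat.Agent.MU.S28.ThmA
import Fermat.Agent.MU.S28.DescentMain
import Fermat.Agent.MU.S28.DescentD3
import Fermat.Agent.MU.Lib.GaussVal.Props

section MergeWrap_S28_RedClosed -- from S28/RedClosed.lean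

/-!
# S28 (K3): `B` is integrally closed in `ℚ(j)[u]`
-/

set_option autoImplicit false

namespace Fermat.Agent.S28

open Polynomial ModularCurve

noncomputable section

variable (ℓ : ℕ) [Fact ℓ.Prime]
variable {jR uR : LaurentSeries ↥(GaloisRep.ratLocalizedAt ℓ)}

/-- **(K3)** an element of `ℚ(j)[u]` which is integral over `B` lies in `B`. -/
theorem mem_Bsub_of_isIntegral {n : ℕ}
    (χR : (↥(GaloisRep.ratLocalizedAt ℓ))[X][X]) (hχm : χR.Monic) (hχd : χR.natDegree = n)
    (hχu : pev2 jR uR χR = 0)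
    (hind : IndepUpTo (redK ℓ jR) (redK ℓ uR) n)
    (hinj : Function.Injective (pev1 (redK ℓ jR)))
    {x : LaurentSeries ℚ} (hxT : InT (incQ ℓ jR) (incQ ℓ uR) x)
    (p : Polynomial ↥(Bsub ℓ jR uR)) (hp : p.Monic)
    (hpx : p.eval₂ (Bsub ℓ jR uR).subtype x = 0) :
    x ∈ Bsub ℓ jR uR := by
  classical
  by_cases hx0 : x = 0
  · rw [hx0]; exact zero_mem _
  obtain ⟨a, b, y, hy, heq⟩ := exists_normal_form ℓ χR hχm hχd hχu hind hinj hxT hx0
  have hL : ∀ d : ℕ, ((ℓ : LaurentSeries ℚ) ^ d) ≠ 0 := natCast_laurentQ_ne_zero ℓ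
  have hℓB : ((ℓ : ℕ) : LaurentSeries ℚ) ∈ Bsub ℓ jR uR := natCast_mem _ ℓ
  rcases le_or_gt a b with hab | hab
  · have h1 : (ℓ : LaurentSeries ℚ) ^ a * x =
        (ℓ : LaurentSeries ℚ) ^ a * ((ℓ : LaurentSeries ℚ) ^ (b - a) * (y : LaurentSeries ℚ)) := by
      rw [← mul_assoc, ← pow_add, Nat.add_sub_cancel' hab]; exact heq
    rw [mul_left_cancel₀ (hL a) h1]
    exact mul_mem (pow_mem hℓB _) y.2
  · exfalso
    obtain ⟨d, hd⟩ : ∃ d, a = b + (d + 1) := ⟨a - b - 1, by omega⟩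
    have h1 : (ℓ : LaurentSeries ℚ) ^ b * ((ℓ : LaurentSeries ℚ) ^ (d + 1) * x) =
        (ℓ : LaurentSeries ℚ) ^ b * (y : LaurentSeries ℚ) := by
      rw [← mul_assoc, ← pow_add, ← hd]; exact heq
    have h2 : (ℓ : LaurentSeries ℚ) ^ (d + 1) * x = (y : LaurentSeries ℚ) :=
      mul_left_cancel₀ (hL b) h1
    set s : ↥(Bsub ℓ jR uR) := ((ℓ : ℕ) : ↥(Bsub ℓ jR uR)) ^ (d + 1) with hs
    have hsval : (Bsub ℓ jR uR).subtype s = (ℓ : LaurentSeries ℚ) ^ (d + 1) := by
      simp [hs]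
    have hρs : rho ℓ jR uR hinj s = 0 := by
      rw [hs, map_pow, rho_natCast_ell, zero_pow (Nat.succ_ne_zero d)]
    set q := scaleRoots p s with hq
    have hq0 : q.eval₂ (Bsub ℓ jR uR).subtype ((Bsub ℓ jR uR).subtype y) = 0 := by
      have := scaleRoots_eval₂_mul (p := p) (Bsub ℓ jR uR).subtype x s
      rw [hpx, mul_zero, hsval, h2] at this
      exact this
    rw [eval₂_at_apply] at hq0
    have hq1 : q.eval y = 0 := by
      apply Subtype.val_injective
      exact hq0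
    have hq2 : (q.map (rho ℓ jR uR hinj)).eval (rho ℓ jR uR hinj y) = 0 := by
      rw [eval_map, eval₂_at_apply, hq1, map_zero]
    have hqmap : q.map (rho ℓ jR uR hinj) = X ^ p.natDegree := by
      ext i
      rw [coeff_map, hq, coeff_scaleRoots, coeff_X_pow]
      by_cases hi : i = p.natDegree
      · rw [if_pos hi, hi, hp.coeff_natDegree, Nat.sub_self, pow_zero, mul_one, map_one]
      · rw [if_neg hi]
        rcases lt_or_gt_of_ne hi with hlt | hgt
        · rw [map_mul, map_pow, hρs, zero_pow (by omega), mul_zero]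
        · rw [coeff_eq_zero_of_natDegree_lt hgt, zero_mul, map_zero]
    rw [hqmap, eval_pow, eval_X] at hq2
    exact hy (pow_eq_zero_iff (M₀ := LaurentSeries (ZMod ℓ)) (n := p.natDegree) (fun h0 => by
      rw [h0, pow_zero] at hq2; exact one_ne_zero hq2) |>.mp hq2)

end

end Fermat.Agent.S28
end MergeWrap_S28_RedClosed

section MergeWrap_S28_RootPoly -- from S28/RootPoly.lean

/-!
# S28 (K4, part b): every `z ∈ B` is a root of a polynomial over `Z_(ℓ)[t]`, `t ∈ {j, j⁻¹}`,
whose leading coefficient is nonzero mod `ℓ`.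
-/

set_option autoImplicit false

namespace Fermat.Agent.S28

open Polynomial ModularCurve

noncomputable section

section General

variable {A : Type*} [CommRing A]

theorem pev2_comp (j x : LaurentSeries A) (p q : A[X][X]) :
    pev2 j x (p.comp q) = p.eval₂ (pev1 j) (pev2 j x q) := by
  rw [comp, hom_eval₂]
  congr 1
  exact RingHom.ext fun a => pev2_C j x a

/-- elements of `A[j,u]` are integral over `A[j]` when `u` is. -/
theorem exists_monic_of_pev2 (j u : LaurentSeries A) (χ : A[X][X]) (hχm : χ.Monic)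
    (hχu : pev2 j u χ = 0) (P : A[X][X]) :
    ∃ c : A[X][X], c.Monic ∧ pev2 j (pev2 j u P) c = 0 := by
  let alg : Algebra A[X] (LaurentSeries A) := (pev1 j).toAlgebra
  have halg : algebraMap A[X] (LaurentSeries A) = pev1 j := rfl
  have hu : IsIntegral A[X] u := ⟨χ, hχm, by rw [halg]; exact hχu⟩
  have hw : IsIntegral A[X] (pev2 j u P) := by
    rw [pev2_apply, eval₂_eq_sum_range]
    refine IsIntegral.sum _ fun i _ => ?_
    exact IsIntegral.mul (by rw [← halg]; exact isIntegral_algebraMap) (hu.pow i)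
  obtain ⟨c, hc, hc0⟩ := hw
  exact ⟨c, hc, by rw [halg] at hc0; exact hc0⟩

/-- coefficientwise reflection of a bivariate polynomial -/
def reflCoeff (M : ℕ) (f : A[X][X]) : A[X][X] :=
  ∑ i ∈ f.support, monomial i (reflect M (f.coeff i))

theorem reflCoeff_coeff (M : ℕ) (f : A[X][X]) (i : ℕ) :
    (reflCoeff M f).coeff i = reflect M (f.coeff i) := by
  classical
  rw [reflCoeff, finsetSum_coeff]
  simp only [coeff_monomial]
  rw [Finset.sum_ite_eq' f.support i]
  by_cases hi : i ∈ f.support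
  · rw [if_pos hi]
  · rw [if_neg hi, notMem_support_iff.mp hi, reflect_zero]

theorem reflCoeff_natDegree_le (M : ℕ) (f : A[X][X]) :
    (reflCoeff M f).natDegree ≤ f.natDegree := by
  rw [natDegree_le_iff_coeff_eq_zero]
  intro i hi
  rw [reflCoeff_coeff, coeff_eq_zero_of_natDegree_lt hi, reflect_zero]

theorem reflCoeff_coeff_natDegree (M : ℕ) (f : A[X][X]) :
    (reflCoeff M f).coeff f.natDegree = reflect M f.leadingCoeff := by
  rw [reflCoeff_coeff]; rfl

end General

section Field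

variable {K : Type*} [Field K]

theorem pev1_inv_reflect (t : LaurentSeries K) (ht : t ≠ 0) (M : ℕ) (e : K[X])
    (he : e.natDegree ≤ M) : pev1 t⁻¹ (reflect M e) * t ^ M = pev1 t e := by
  let _ : Invertible t := invertibleOfNonzero ht
  have := eval₂_reflect_mul_pow (HahnSeries.C : K →+* LaurentSeries K) t M e he
  rw [invOf_eq_inv] at this
  exact this

theorem pev2_inv_reflCoeff (t z : LaurentSeries K) (ht : t ≠ 0) (M : ℕ) (f : K[X][X])
    (hM : ∀ i, (f.coeff i).natDegree ≤ M) :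
    pev2 t⁻¹ z (reflCoeff M f) * t ^ M = pev2 t z f := by
  rw [pev2_apply, pev2_apply,
    eval₂_eq_sum_range' (pev1 t⁻¹) (Nat.lt_succ_of_le (reflCoeff_natDegree_le M f)) z,
    eval₂_eq_sum_range, Finset.sum_mul]
  refine Finset.sum_congr rfl fun i _ => ?_
  rw [reflCoeff_coeff, mul_right_comm, pev1_inv_reflect t ht M _ (hM i)]

end Field

section Main

variable (ℓ : ℕ) [Fact ℓ.Prime]
variable {jR uR : LaurentSeries ↥(GaloisRep.ratLocalizedAt ℓ)}

/-- (b) for `t = j`. -/
theorem exists_root_poly_j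
    (χR : (↥(GaloisRep.ratLocalizedAt ℓ))[X][X]) (hχm : χR.Monic) (hχu : pev2 jR uR χR = 0)
    {z : LaurentSeries ℚ} (hz : z ∈ Bsub ℓ jR uR) :
    ∃ fR : (↥(GaloisRep.ratLocalizedAt ℓ))[X][X], fR.leadingCoeff.map (resR ℓ) ≠ 0 ∧
      pev2 (incQ ℓ jR) z
        ((mapRingHom (mapRingHom (GaloisRep.ratLocalizedAt ℓ).subtype)) fR) = 0 := by
  obtain ⟨g₀, hg₀, P₀, hP⟩ := (mem_Bsub_iff ℓ jR uR).mp hz
  obtain ⟨c, hc, hc0⟩ := exists_monic_of_pev2 jR uR χR hχm hχu P₀
  have hg₀0 : g₀ ≠ 0 := by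
    rintro rfl
    exact hg₀ (Polynomial.map_zero _)
  have hq : (C g₀ * X : (↥(GaloisRep.ratLocalizedAt ℓ))[X][X]).natDegree ≠ 0 := by
    rw [natDegree_C_mul_X g₀ hg₀0]; exact one_ne_zero
  refine ⟨c.comp (C g₀ * X), ?_, ?_⟩
  · rw [leadingCoeff_comp hq, hc.leadingCoeff, one_mul, leadingCoeff_C_mul_X,
      Polynomial.map_pow]
    exact pow_ne_zero _ hg₀
  · have h1 : (mapRingHom (mapRingHom (GaloisRep.ratLocalizedAt ℓ).subtype)) (c.comp (C g₀ * X)) =
        Polynomial.map (mapRingHom (GaloisRep.ratLocalizedAt ℓ).subtype) (c.comp (C g₀ * X)) := rfl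
    have h2 : pev2 (incQ ℓ jR) z
        (Polynomial.map (mapRingHom (GaloisRep.ratLocalizedAt ℓ).subtype) (C g₀ * X)) =
        incQ ℓ (pev2 jR uR P₀) := by
      rw [Polynomial.map_mul, Polynomial.map_C, Polynomial.map_X, map_mul, pev2_C, pev2_X, ← hP,
        mul_comm]
      congr 1
      rw [coeffMap_pev1]
      rfl
    rw [h1, Polynomial.map_comp, pev2_comp, h2, ← pev2_apply, ← coeffMap_pev2, hc0, map_zero]

end Main

end

end Fermat.Agent.S28
end MergeWrap_S28_RootPoly

section MergeWrap_S28_Gauss -- from S28/Gauss.lean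

/-!
# S28: Gauss lemma at `ℓ` for minimal polynomials over `ℚ[t]`

If `y ∈ ℚ((q))` is integral over `ℚ[t]` (`t` transcendental) and is a root of some
`f ∈ Z_(ℓ)[Y][X]` (evaluated at `Y = t`) whose leading coefficient is `≢ 0 mod ℓ`, then `y` is a root of
a MONIC polynomial in `Z_(ℓ)[Y][X]`.
-/

set_option autoImplicit false

namespace Fermat.Agent.S28

open Polynomial ModularCurve

noncomputable section

variable (ℓ : ℕ) [Fact ℓ.Prime]

theorem natCast_pow_ne_zero_ratLoc_poly2 (d : ℕ) :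
    ((ℓ : (↥(GaloisRep.ratLocalizedAt ℓ))[X][X]) ^ d) ≠ 0 := by
  have hℓ : ((ℓ : ℕ) : ↥(GaloisRep.ratLocalizedAt ℓ)) ≠ 0 := by
    intro h
    have h1 := congrArg (GaloisRep.ratLocalizedAt ℓ).subtype h
    rw [map_natCast, map_zero] at h1
    exact (Fact.out : ℓ.Prime).ne_zero (by exact_mod_cast h1)
  have h1 : ((ℓ : ℕ) : (↥(GaloisRep.ratLocalizedAt ℓ))[X][X]) = C (C (ℓ : ↥(GaloisRep.ratLocalizedAt ℓ))) := by
    simp
  rw [h1, ← C_pow, ← C_pow]
  intro h
  exact (pow_ne_zero d hℓ) (C_eq_zero.mp (C_eq_zero.mp h))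

theorem map_res_natCast_pow_mul (d : ℕ) (P : (↥(GaloisRep.ratLocalizedAt ℓ))[X][X]) :
    (mapRingHom (mapRingHom (resR ℓ)))
      ((ℓ : (↥(GaloisRep.ratLocalizedAt ℓ))[X][X]) ^ (d + 1) * P) = 0 := by
  rw [map_mul, map_pow, (gaussTriple_poly2 ℓ).ell, zero_pow (Nat.succ_ne_zero d), zero_mul]

/-- Gauss lemma for products in `Z_(ℓ)[Y][X]`: if `ℓ^A f = ℓ^B m h` with `f, m, h` all nonzero mod `ℓ`
then `f = m h`. -/
theorem eq_mul_of_pow_mul_eq {A B : ℕ} {f m h : (↥(GaloisRep.ratLocalizedAt ℓ))[X][X]}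
    (hf : (mapRingHom (mapRingHom (resR ℓ))) f ≠ 0)
    (hm : (mapRingHom (mapRingHom (resR ℓ))) m ≠ 0)
    (hh : (mapRingHom (mapRingHom (resR ℓ))) h ≠ 0)
    (heq : (ℓ : (↥(GaloisRep.ratLocalizedAt ℓ))[X][X]) ^ A * f =
      (ℓ : (↥(GaloisRep.ratLocalizedAt ℓ))[X][X]) ^ B * (m * h)) : f = m * h := by
  have hmh : (mapRingHom (mapRingHom (resR ℓ))) (m * h) ≠ 0 := by
    rw [map_mul]; exact mul_ne_zero hm hh
  rcases lt_trichotomy A B with hAB | hAB | hAB
  · exfalso
    obtain ⟨d, hd⟩ : ∃ d, B = A + (d + 1) := ⟨B - A - 1, by omega⟩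
    rw [hd, pow_add, mul_assoc] at heq
    have h1 := mul_left_cancel₀ (natCast_pow_ne_zero_ratLoc_poly2 ℓ A) heq
    apply hf
    rw [h1]
    exact map_res_natCast_pow_mul ℓ d _
  · rw [hAB] at heq
    exact mul_left_cancel₀ (natCast_pow_ne_zero_ratLoc_poly2 ℓ B) heq
  · exfalso
    obtain ⟨d, hd⟩ : ∃ d, A = B + (d + 1) := ⟨A - B - 1, by omega⟩
    rw [hd, pow_add, mul_assoc] at heq
    have h1 := mul_left_cancel₀ (natCast_pow_ne_zero_ratLoc_poly2 ℓ B) heq
    apply hmh
    rw [← h1]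
    exact map_res_natCast_pow_mul ℓ d _

/-- **Gauss lemma at `ℓ`** for roots of polynomials over `ℚ[t]`. -/
theorem exists_monic_ratLoc_of_root (t y : LaurentSeries ℚ) (ht : Function.Injective (pev1 t))
    (g : ℚ[X][X]) (hg : g.Monic) (hgy : pev2 t y g = 0)
    (fR : (↥(GaloisRep.ratLocalizedAt ℓ))[X][X])
    (hlead : fR.leadingCoeff.map (resR ℓ) ≠ 0)
    (hfy : pev2 t y ((mapRingHom (mapRingHom (GaloisRep.ratLocalizedAt ℓ).subtype)) fR) = 0) :
    ∃ mR : (↥(GaloisRep.ratLocalizedAt ℓ))[X][X], mR.Monic ∧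
      pev2 t y ((mapRingHom (mapRingHom (GaloisRep.ratLocalizedAt ℓ).subtype)) mR) = 0 := by
  classical
  set ι := (GaloisRep.ratLocalizedAt ℓ).subtype with hι
  have hιinj : Function.Injective ι := Subtype.val_injective
  have hι1 : Function.Injective (mapRingHom ι) := Polynomial.map_injective ι hιinj
  have hι2 : Function.Injective (mapRingHom (mapRingHom ι)) := Polynomial.map_injective _ hι1
  let alg : Algebra ℚ[X] (LaurentSeries ℚ) := (pev1 t).toAlgebra
  have halg : algebraMap ℚ[X] (LaurentSeries ℚ) = pev1 t := rfl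
  have : Module.IsTorsionFree ℚ[X] (LaurentSeries ℚ) :=
    Module.isTorsionFree_iff_algebraMap_injective.mpr ht
  have hint : IsIntegral ℚ[X] y := ⟨g, hg, by rw [halg]; exact hgy⟩
  set m := minpoly ℚ[X] y with hm
  have hm_monic : m.Monic := minpoly.monic hint
  have hm_y : pev2 t y m = 0 := by
    have := minpoly.aeval ℚ[X] y
    rwa [aeval_def, halg] at this
  set f : ℚ[X][X] := (mapRingHom (mapRingHom ι)) fR with hf
  have hfR0 : fR ≠ 0 := by
    intro h
    rw [h, leadingCoeff_zero, Polynomial.map_zero] at hlead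
    exact hlead rfl
  have hf0 : f ≠ 0 := fun h => hfR0 (hι2 (by rw [← hf, h, map_zero]))
  have hdvd : m ∣ f := minpoly.isIntegrallyClosed_dvd hint (by rw [aeval_def, halg]; exact hfy)
  obtain ⟨h, hh⟩ := hdvd
  have hh0 : h ≠ 0 := by
    rintro rfl
    rw [mul_zero] at hh
    exact hf0 hh
  obtain ⟨a₁, b₁, m₀, hm₀, hmeq⟩ := (gaussTriple_poly2 ℓ).nrm m hm_monic.ne_zero
  obtain ⟨a₂, b₂, h₀, hh₀, hheq⟩ := (gaussTriple_poly2 ℓ).nrm h hh0
  have hfres : (mapRingHom (mapRingHom (resR ℓ))) fR ≠ 0 := by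
    intro h1
    apply hlead
    have h2 := congrArg (fun Q => Polynomial.coeff Q fR.natDegree) h1
    simpa using h2
  have hprod : (ℓ : (↥(GaloisRep.ratLocalizedAt ℓ))[X][X]) ^ (a₁ + a₂) * fR =
      (ℓ : (↥(GaloisRep.ratLocalizedAt ℓ))[X][X]) ^ (b₁ + b₂) * (m₀ * h₀) := by
    apply hι2
    rw [map_mul, map_mul, map_mul, map_pow, map_pow, map_natCast, ← hf, hh]
    calc (ℓ : ℚ[X][X]) ^ (a₁ + a₂) * (m * h)
        = ((ℓ : ℚ[X][X]) ^ a₁ * m) * ((ℓ : ℚ[X][X]) ^ a₂ * h) := by rw [pow_add]; ring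
      _ = ((ℓ : ℚ[X][X]) ^ b₁ * (mapRingHom (mapRingHom ι)) m₀) *
            ((ℓ : ℚ[X][X]) ^ b₂ * (mapRingHom (mapRingHom ι)) h₀) := by rw [hmeq, hheq]
      _ = _ := by rw [pow_add]; ring
  have hfmh : fR = m₀ * h₀ := eq_mul_of_pow_mul_eq ℓ hfres hm₀ hh₀ hprod
  -- leading coefficient of `m₀` is nonzero mod ℓ
  have hlc : m₀.leadingCoeff.map (resR ℓ) ≠ 0 := by
    intro h1
    apply hlead
    rw [hfmh, leadingCoeff_mul, Polynomial.map_mul, h1, zero_mul]
  have hm₀0 : m₀ ≠ 0 := by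
    rintro rfl
    exact hm₀ (map_zero _)
  -- compare leading coefficients in `ℓ^a₁ m = ℓ^b₁ m₀`
  have hℓC : ((ℓ : ℕ) : ℚ[X][X]) = C ((ℓ : ℕ) : ℚ[X]) := by simp
  have hlead_eq : ((ℓ : ℕ) : ℚ[X]) ^ a₁ = ((ℓ : ℕ) : ℚ[X]) ^ b₁ * (mapRingHom ι) m₀.leadingCoeff := by
    have h1 := congrArg Polynomial.leadingCoeff hmeq
    rw [leadingCoeff_mul, leadingCoeff_mul, hm_monic.leadingCoeff, mul_one, hℓC, ← C_pow, ← C_pow,
      leadingCoeff_C, leadingCoeff_C] at h1
    rw [h1]
    congr 1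
    show ((mapRingHom (mapRingHom ι)) m₀).leadingCoeff = _
    rw [coe_mapRingHom, leadingCoeff_map_of_injective hι1]
  have hℓR : ∀ d : ℕ, ((ℓ : (↥(GaloisRep.ratLocalizedAt ℓ))[X]) ^ d) ≠ 0 := by
    intro d
    have hℓ : ((ℓ : ℕ) : ↥(GaloisRep.ratLocalizedAt ℓ)) ≠ 0 := by
      intro h
      have h1 := congrArg (GaloisRep.ratLocalizedAt ℓ).subtype h
      rw [map_natCast, map_zero] at h1
      exact (Fact.out : ℓ.Prime).ne_zero (by exact_mod_cast h1)
    have h1 : ((ℓ : ℕ) : (↥(GaloisRep.ratLocalizedAt ℓ))[X]) = C (ℓ : ↥(GaloisRep.ratLocalizedAt ℓ)) := by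
      simp
    rw [h1, ← C_pow]
    intro h
    exact (pow_ne_zero d hℓ) (C_eq_zero.mp h)
  have hlead_R : ((ℓ : ℕ) : (↥(GaloisRep.ratLocalizedAt ℓ))[X]) ^ a₁ =
      ((ℓ : ℕ) : (↥(GaloisRep.ratLocalizedAt ℓ))[X]) ^ b₁ * m₀.leadingCoeff := by
    apply hι1
    rw [map_mul, map_pow, map_pow, map_natCast]
    exact hlead_eq
  have hab : a₁ = b₁ := by
    rcases lt_trichotomy a₁ b₁ with hlt | heq | hgt
    · exfalso
      obtain ⟨d, hd⟩ : ∃ d, b₁ = a₁ + (d + 1) := ⟨b₁ - a₁ - 1, by omega⟩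
      rw [hd, pow_add, mul_assoc] at hlead_R
      have h1 : (1 : (↥(GaloisRep.ratLocalizedAt ℓ))[X]) =
          ((ℓ : ℕ) : (↥(GaloisRep.ratLocalizedAt ℓ))[X]) ^ (d + 1) * m₀.leadingCoeff :=
        mul_left_cancel₀ (hℓR a₁) (by rw [mul_one]; exact hlead_R)
      have h2 := congrArg (mapRingHom (resR ℓ)) h1
      rw [map_one, map_mul, map_pow, (gaussTriple_poly1 ℓ).ell, zero_pow (Nat.succ_ne_zero d),
        zero_mul] at h2
      exact one_ne_zero h2
    · exact heq
    · exfalso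
      obtain ⟨d, hd⟩ : ∃ d, a₁ = b₁ + (d + 1) := ⟨a₁ - b₁ - 1, by omega⟩
      rw [hd, pow_add] at hlead_R
      have h1 : ((ℓ : ℕ) : (↥(GaloisRep.ratLocalizedAt ℓ))[X]) ^ (d + 1) = m₀.leadingCoeff :=
        mul_left_cancel₀ (hℓR b₁) hlead_R
      apply hlc
      rw [← h1]
      have : Polynomial.map (resR ℓ) (((ℓ : ℕ) : (↥(GaloisRep.ratLocalizedAt ℓ))[X]) ^ (d + 1)) =
          (mapRingHom (resR ℓ)) (((ℓ : ℕ) : (↥(GaloisRep.ratLocalizedAt ℓ))[X]) ^ (d + 1)) := rfl
      rw [this, map_pow, (gaussTriple_poly1 ℓ).ell, zero_pow (Nat.succ_ne_zero d)]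
  have hℓQ : ((ℓ : ℚ[X][X]) ^ b₁) ≠ 0 := by
    have hℓ : (ℓ : ℚ) ≠ 0 := by exact_mod_cast (Fact.out : ℓ.Prime).ne_zero
    have h1 : ((ℓ : ℕ) : ℚ[X][X]) = C (C (ℓ : ℚ)) := by simp
    rw [h1, ← C_pow, ← C_pow]
    intro h
    exact (pow_ne_zero b₁ hℓ) (C_eq_zero.mp (C_eq_zero.mp h))
  have hmm₀ : m = (mapRingHom (mapRingHom ι)) m₀ := by
    rw [hab] at hmeq
    exact mul_left_cancel₀ hℓQ hmeq
  refine ⟨m₀, ?_, ?_⟩
  · exact monic_of_injective hι1 (by
      have : Polynomial.map (mapRingHom ι) m₀ = (mapRingHom (mapRingHom ι)) m₀ := rfl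
      rw [this, ← hmm₀]; exact hm_monic)
  · rw [← hmm₀]; exact hm_y

end

end Fermat.Agent.S28
end MergeWrap_S28_Gauss

section MergeWrap_S28_K4 -- from S28/K4.lean

/-!
# S28 (K4): `A ∩ ℓ B = ℓ A` for `A` the integral closure of `Z_(ℓ)[t]`, `t ∈ {j, j⁻¹}`

Polynomial form: if `z ∈ B` and `ℓ z` is a root of a monic polynomial over `Z_(ℓ)[t]`, then so is `z`.
-/

set_option autoImplicit false

namespace Fermat.Agent.S28

open Polynomial ModularCurve

noncomputable section

section Reflect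

variable {A B : Type*} [CommRing A] [CommRing B]

theorem reflect_map_eq (M : ℕ) (f : A →+* B) (e : A[X]) :
    (reflect M e).map f = reflect M (e.map f) := by
  ext i
  rw [coeff_map, coeff_reflect, coeff_reflect, coeff_map]

theorem reflect_ne_zero {M : ℕ} {e : A[X]} (he : e ≠ 0) (hM : e.natDegree ≤ M) :
    reflect M e ≠ 0 := by
  intro h
  apply he
  ext i
  by_cases hi : i ≤ M
  · have := congrArg (fun p => Polynomial.coeff p (revAt M i)) h
    simp only [coeff_reflect, coeff_zero] at this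
    rw [revAt_invol] at this
    rw [this, coeff_zero]
  · rw [coeff_eq_zero_of_natDegree_lt (lt_of_le_of_lt hM (not_le.mp hi)), coeff_zero]

theorem reflCoeff_map (M : ℕ) (f : A →+* B) (F : A[X][X]) :
    (reflCoeff M F).map (mapRingHom f) = reflCoeff M (F.map (mapRingHom f)) := by
  ext i : 1
  rw [coeff_map, reflCoeff_coeff, reflCoeff_coeff, coeff_map, coe_mapRingHom, reflect_map_eq]

end Reflect

section Field

variable {K : Type*} [Field K]

theorem pev1_inv_injective {t : LaurentSeries K} (ht : Function.Injective (pev1 t)) :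
    Function.Injective (pev1 t⁻¹) := by
  have ht0 : t ≠ 0 := by
    intro h
    have h1 : pev1 t (X : K[X]) = pev1 t 0 := by rw [pev1_X, map_zero, h]
    exact X_ne_zero (ht h1)
  rw [injective_iff_map_eq_zero]
  intro e he
  by_contra he0
  have h1 := pev1_inv_reflect t⁻¹ (inv_ne_zero ht0) e.natDegree e le_rfl
  rw [inv_inv, he] at h1
  have h2 : pev1 t (reflect e.natDegree e) = 0 := by
    rcases mul_eq_zero.mp h1 with h | h
    · exact h
    · exact absurd h (pow_ne_zero _ (inv_ne_zero ht0))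
  exact reflect_ne_zero he0 le_rfl (ht (by rw [h2, map_zero]))

end Field

section Main

variable (ℓ : ℕ) [Fact ℓ.Prime]
variable {jR uR : LaurentSeries ↥(GaloisRep.ratLocalizedAt ℓ)}

/-- (b) for `t = j⁻¹`. -/
theorem exists_root_poly_jinv
    (χR : (↥(GaloisRep.ratLocalizedAt ℓ))[X][X]) (hχm : χR.Monic) (hχu : pev2 jR uR χR = 0)
    (hj : incQ ℓ jR ≠ 0)
    {z : LaurentSeries ℚ} (hz : z ∈ Bsub ℓ jR uR) :
    ∃ fR : (↥(GaloisRep.ratLocalizedAt ℓ))[X][X], fR.leadingCoeff.map (resR ℓ) ≠ 0 ∧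
      pev2 (incQ ℓ jR)⁻¹ z
        ((mapRingHom (mapRingHom (GaloisRep.ratLocalizedAt ℓ).subtype)) fR) = 0 := by
  classical
  obtain ⟨f, hf, hfz⟩ := exists_root_poly_j ℓ χR hχm hχu hz
  set M : ℕ := f.support.sup (fun i => (f.coeff i).natDegree) with hM
  have hMle : ∀ i, (f.coeff i).natDegree ≤ M := by
    intro i
    by_cases hi : i ∈ f.support
    · exact Finset.le_sup (f := fun i => (f.coeff i).natDegree) hi
    · rw [notMem_support_iff.mp hi, natDegree_zero]; exact Nat.zero_le _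
  have hlc0 : f.leadingCoeff ≠ 0 := by
    intro h
    rw [h, Polynomial.map_zero] at hf
    exact hf rfl
  have hrefl0 : reflect M f.leadingCoeff ≠ 0 := reflect_ne_zero hlc0 (hMle _)
  have hdeg : (reflCoeff M f).natDegree = f.natDegree := by
    apply le_antisymm (reflCoeff_natDegree_le M f)
    apply le_natDegree_of_ne_zero
    rw [reflCoeff_coeff_natDegree]
    exact hrefl0
  refine ⟨reflCoeff M f, ?_, ?_⟩
  · rw [leadingCoeff, hdeg, reflCoeff_coeff_natDegree, reflect_map_eq]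
    refine reflect_ne_zero hf ?_
    exact le_trans natDegree_map_le (hMle _)
  · have h1 : (mapRingHom (mapRingHom (GaloisRep.ratLocalizedAt ℓ).subtype)) (reflCoeff M f) =
        reflCoeff M ((mapRingHom (mapRingHom (GaloisRep.ratLocalizedAt ℓ).subtype)) f) :=
      reflCoeff_map M _ f
    have h2 := pev2_inv_reflCoeff (incQ ℓ jR) z hj M
      ((mapRingHom (mapRingHom (GaloisRep.ratLocalizedAt ℓ).subtype)) f) (by
        intro i
        rw [coe_mapRingHom, coeff_map]
        exact le_trans natDegree_map_le (hMle i))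
    rw [hfz] at h2
    rw [h1]
    rcases mul_eq_zero.mp h2 with h | h
    · exact h
    · exact absurd h (pow_ne_zero _ hj)

/-- **(K4)**, general form. -/
theorem exists_monic_of_ell_mul (t z : LaurentSeries ℚ) (ht : Function.Injective (pev1 t))
    (hb : ∃ fR : (↥(GaloisRep.ratLocalizedAt ℓ))[X][X], fR.leadingCoeff.map (resR ℓ) ≠ 0 ∧
      pev2 t z ((mapRingHom (mapRingHom (GaloisRep.ratLocalizedAt ℓ).subtype)) fR) = 0)
    (pR : (↥(GaloisRep.ratLocalizedAt ℓ))[X][X]) (hp : pR.Monic)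
    (hpz : pev2 t ((ℓ : LaurentSeries ℚ) * z)
      ((mapRingHom (mapRingHom (GaloisRep.ratLocalizedAt ℓ).subtype)) pR) = 0) :
    ∃ mR : (↥(GaloisRep.ratLocalizedAt ℓ))[X][X], mR.Monic ∧
      pev2 t z ((mapRingHom (mapRingHom (GaloisRep.ratLocalizedAt ℓ).subtype)) mR) = 0 := by
  obtain ⟨fR, hlead, hfz⟩ := hb
  set p : ℚ[X][X] := (mapRingHom (mapRingHom (GaloisRep.ratLocalizedAt ℓ).subtype)) pR with hpdef
  have hpm : p.Monic := hp.map _
  have hℓ : ((ℓ : ℕ) : ℚ) ≠ 0 := by exact_mod_cast (Fact.out : ℓ.Prime).ne_zero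
  set s : ℚ[X] := C ((ℓ : ℚ)⁻¹) with hs
  have hsz : pev1 t s * ((ℓ : LaurentSeries ℚ) * z) = z := by
    have e : ((ℓ : ℕ) : LaurentSeries ℚ) = HahnSeries.C ((ℓ : ℕ) : ℚ) := by rw [map_natCast]
    rw [hs, pev1_C, e, ← mul_assoc, ← map_mul, inv_mul_cancel₀ hℓ, map_one, one_mul]
  have hg : pev2 t z (scaleRoots p s) = 0 := by
    have := scaleRoots_eval₂_mul (p := p) (pev1 t) ((ℓ : LaurentSeries ℚ) * z) s
    rw [hsz] at this
    rw [pev2_apply, this, ← pev2_apply, hpz, mul_zero]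
  exact exists_monic_ratLoc_of_root ℓ t z ht (scaleRoots p s)
    ((monic_scaleRoots_iff s).mpr hpm) hg fR hlead hfz

end Main

end

end Fermat.Agent.S28
end MergeWrap_S28_K4

section MergeWrap_S28_RedMain -- from S28/RedMain.lean

/-!
# S28: `reduction_main` — the reduction package in the shape of `RedStatement`

Input: `u = q^{φ(n-1)}(1+…) ∈ ℤ((q))`, `χ ∈ ℚ[Y][X]` monic of degree `n` with `Z_(ℓ)`-coefficients, degree
bounds and `χ(j,u) = 0`, plus the field-theoretic facts `F ≤ ℚ(j,u)` and `ℚ(j,u) ⊆ ℚ(j)[u]` (`InT`).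
Output: `RedStatement N ℓ`.
-/

set_option autoImplicit false

namespace Fermat.Agent.S28

open Polynomial ModularCurve

noncomputable section

section Lift

variable (ℓ : ℕ)

theorem exists_lift_ratLoc1 (q : ℚ[X]) (hq : ∀ k, q.coeff k ∈ GaloisRep.ratLocalizedAt ℓ) :
    ∃ qR : (↥(GaloisRep.ratLocalizedAt ℓ))[X],
      (mapRingHom (GaloisRep.ratLocalizedAt ℓ).subtype) qR = q := by
  have : q ∈ Polynomial.lifts (GaloisRep.ratLocalizedAt ℓ).subtype := by
    rw [Polynomial.lifts_iff_coeff_lifts]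
    intro k
    exact ⟨⟨q.coeff k, hq k⟩, rfl⟩
  obtain ⟨qR, hqR⟩ := (Polynomial.mem_lifts _).mp this
  exact ⟨qR, hqR⟩

theorem exists_lift_ratLoc2 (p : ℚ[X][X])
    (hp : ∀ i k, (p.coeff i).coeff k ∈ GaloisRep.ratLocalizedAt ℓ) :
    ∃ pR : (↥(GaloisRep.ratLocalizedAt ℓ))[X][X],
      (mapRingHom (mapRingHom (GaloisRep.ratLocalizedAt ℓ).subtype)) pR = p := by
  have : p ∈ Polynomial.lifts (mapRingHom (GaloisRep.ratLocalizedAt ℓ).subtype) := by
    rw [Polynomial.lifts_iff_coeff_lifts]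
    intro i
    obtain ⟨qR, hqR⟩ := exists_lift_ratLoc1 ℓ (p.coeff i) (hp i)
    exact ⟨qR, hqR⟩
  obtain ⟨pR, hpR⟩ := (Polynomial.mem_lifts _).mp this
  exact ⟨pR, hpR⟩

theorem coeff_mem_of_map (pR : (↥(GaloisRep.ratLocalizedAt ℓ))[X][X]) (i k : ℕ) :
    (((mapRingHom (mapRingHom (GaloisRep.ratLocalizedAt ℓ).subtype)) pR).coeff i).coeff k ∈
      GaloisRep.ratLocalizedAt ℓ := by
  rw [coe_mapRingHom, coeff_map, coe_mapRingHom, coeff_map]
  exact ((pR.coeff i).coeff k).2

end Lift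

section UnitSeries

variable {k : Type*} [Field k]

/-- the series `q^a · E` over a commutative ring -/
def unitSeries (A : Type*) [CommRing A] (a : ℤ) (E : PowerSeries ℤ) : LaurentSeries A :=
  HahnSeries.single a (1 : A) * HahnSeries.ofPowerSeries ℤ A (E.map (Int.castRingHom A))

theorem coeffMap_unitSeries {A B : Type*} [CommRing A] [CommRing B] (f : A →+* B) (a : ℤ)
    (E : PowerSeries ℤ) : coeffMap f (unitSeries A a E) = unitSeries B a E := by
  rw [unitSeries, unitSeries, map_mul, coeffMap_single, map_one, coeffMap_ofPowerSeries]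
  congr 2
  rw [← RingHom.comp_apply (PowerSeries.map f) (PowerSeries.map (Int.castRingHom A)),
    ← PowerSeries.map_comp, RingHom.ext_int (f.comp (Int.castRingHom A)) (Int.castRingHom B)]

theorem ordV_ofPowerSeries_of_constantCoeff_ne_zero (F : PowerSeries k)
    (hF : PowerSeries.constantCoeff F ≠ 0) :
    ordV k (HahnSeries.ofPowerSeries ℤ k F) = ((0 : ℤ) : WithTop ℤ) := by
  rw [ordV, HahnSeries.addVal_apply]
  apply HahnSeries.orderTop_eq_of_le
  · rw [HahnSeries.mem_support]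
    have := HahnSeries.ofPowerSeries_apply_coeff (Γ := ℤ) F 0
    simp only [Nat.cast_zero] at this
    rw [this, PowerSeries.coeff_zero_eq_constantCoeff]
    exact hF
  · intro g hg
    by_contra hlt
    rw [not_le] at hlt
    rw [HahnSeries.mem_support] at hg
    exact hg (ofPowerSeries_coeff_of_neg F hlt)

theorem ordV_unitSeries (a : ℤ) (E : PowerSeries ℤ) (hE : PowerSeries.constantCoeff E = 1) :
    ordV k (unitSeries k a E) = (a : WithTop ℤ) := by
  rw [unitSeries, AddValuation.map_mul]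
  have h1 : ordV k (HahnSeries.single a (1 : k)) = (a : WithTop ℤ) := by
    rw [ordV, HahnSeries.addVal_apply, HahnSeries.orderTop_single one_ne_zero]
  have h2 : PowerSeries.constantCoeff (E.map (Int.castRingHom k)) ≠ 0 := by
    rw [← PowerSeries.coeff_zero_eq_constantCoeff, PowerSeries.coeff_map,
      PowerSeries.coeff_zero_eq_constantCoeff, hE, map_one]
    exact one_ne_zero
  rw [h1, ordV_ofPowerSeries_of_constantCoeff_ne_zero _ h2]
  simp

end UnitSeries

section Main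

variable (N : ℕ) [NeZero N] (ℓ : ℕ) [Fact ℓ.Prime]

theorem evJ_mem_Bsub {jR uR : LaurentSeries ↥(GaloisRep.ratLocalizedAt ℓ)}
    {s : LaurentSeries ℚ} (hs : s ∈ Bsub ℓ jR uR) (e : ℚ[X])
    (he : ∀ k, e.coeff k ∈ GaloisRep.ratLocalizedAt ℓ) : evJ s e ∈ Bsub ℓ jR uR := by
  rw [← pev1_eq_evJ, pev1_apply, eval₂_eq_sum_range]
  refine sum_mem fun k _ => ?_
  exact mul_mem (const_mem_Bsub ℓ jR uR ⟨e.coeff k, he k⟩) (pow_mem hs k)

omit [NeZero N] in
/-- **Reduction package** (`K1`–`K4` in the shape of `RedStatement`). -/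
theorem reduction_main {n φ : ℕ} (hφ : 0 < φ) (u : LaurentSeries ℚ)
    (hu : IsMonicUnitSeries u (((φ * (n - 1) : ℕ) : ℤ)))
    (χ : ℚ[X][X]) (hχm : χ.Monic) (hχd : χ.natDegree = n)
    (hχc : ∀ i, i < n → (χ.coeff i).natDegree + φ * i ≤ φ * n)
    (hχint : ∀ i k, (χ.coeff i).coeff k ∈ GaloisRep.ratLocalizedAt ℓ)
    (hχu : χ.eval₂ (evJ jq) u = 0)
    (hD3 : modularFunctionFieldFull N ≤
      IntermediateField.adjoin ℚ ({jq, u} : Set (LaurentSeries ℚ)))
    (hT : ∀ x ∈ IntermediateField.adjoin ℚ ({jq, u} : Set (LaurentSeries ℚ)), InT jq u x) :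
    RedStatement N ℓ := by
  classical
  obtain ⟨E, hE, hu_eq⟩ := hu
  set a : ℤ := ((φ * (n - 1) : ℕ) : ℤ) with ha
  set ι := (GaloisRep.ratLocalizedAt ℓ).subtype with hι
  have hιinj : Function.Injective ι := Subtype.val_injective
  have hι1 : Function.Injective (mapRingHom ι) := Polynomial.map_injective ι hιinj
  set jR : LaurentSeries ↥(GaloisRep.ratLocalizedAt ℓ) := unitSeries _ (-1) jNum with hjR
  set uR : LaurentSeries ↥(GaloisRep.ratLocalizedAt ℓ) := unitSeries _ a E with huR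
  have hjQ : incQ ℓ jR = jq := by
    rw [hjR, coeffMap_unitSeries]; rfl
  have huQ : incQ ℓ uR = u := by
    rw [huR, coeffMap_unitSeries, hu_eq]; rfl
  have hjk : ordV (ZMod ℓ) (redK ℓ jR) = ((-1 : ℤ) : WithTop ℤ) := by
    rw [hjR, coeffMap_unitSeries]
    exact ordV_unitSeries (-1) jNum constantCoeff_jNum
  have huk : ordV (ZMod ℓ) (redK ℓ uR) = (a : WithTop ℤ) := by
    rw [huR, coeffMap_unitSeries]
    exact ordV_unitSeries a E hE
  obtain ⟨χR, hχR⟩ := exists_lift_ratLoc2 ℓ χ hχint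
  have hχRm : χR.Monic := monic_of_injective hι1 (by
    have : Polynomial.map (mapRingHom ι) χR = (mapRingHom (mapRingHom ι)) χR := rfl
    rw [this, hχR]; exact hχm)
  have hχRd : χR.natDegree = n := by
    rw [← hχd, ← hχR]; exact (natDegree_map_eq_of_injective hι1 _).symm
  have hχRu : pev2 jR uR χR = 0 := by
    apply incQ_injective ℓ
    have : Polynomial.map (mapRingHom ι) χR = (mapRingHom (mapRingHom ι)) χR := rfl
    rw [coeffMap_pev2, map_zero, this, hχR, hjQ, huQ, pev2_eq_eval₂_evJ]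
    exact hχu
  -- the reduction of `χ`
  set χk : (ZMod ℓ)[X][X] := (mapRingHom (mapRingHom (resR ℓ))) χR with hχk
  have hχkm : χk.Monic := hχRm.map _
  have hχkd : χk.natDegree = n := by
    rw [← hχRd]; exact hχRm.natDegree_map _
  have hχkc : ∀ i, i < n → (χk.coeff i).natDegree + φ * i ≤ φ * n := by
    intro i hi
    refine le_trans (Nat.add_le_add_right ?_ _) (hχc i hi)
    rw [hχk, coe_mapRingHom, coeff_map, coe_mapRingHom]
    calc ((χR.coeff i).map (resR ℓ)).natDegree ≤ (χR.coeff i).natDegree := natDegree_map_le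
      _ = ((χR.coeff i).map ι).natDegree := (natDegree_map_eq_of_injective hιinj _).symm
      _ = (χ.coeff i).natDegree := by
          rw [← hχR, coe_mapRingHom, coeff_map, coe_mapRingHom]
  have hχku : pev2 (redK ℓ jR) (redK ℓ uR) χk = 0 := by
    have : χk = Polynomial.map (mapRingHom (resR ℓ)) χR := rfl
    rw [this, ← coeffMap_pev2, hχRu, map_zero]
  have huk0 : redK ℓ uR ≠ 0 := by
    intro h
    rw [h, AddValuation.map_zero] at huk
    exact WithTop.top_ne_coe huk
  have hind : IndepUpTo (redK ℓ jR) (redK ℓ uR) n := by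
    intro P hP h0
    exact order_lemma (redK ℓ jR) (redK ℓ uR) hjk huk0 hφ χk hχkm hχkd hχkc
      (by rw [← pev2_eq_eval₂_evJ]; exact hχku) (by rw [huk]) P hP
      (by rw [← pev2_eq_eval₂_evJ]; exact h0)
  have hn : 0 < n := indep_pos ℓ jR uR χR hχRm hχRd hχRu
  have hinj : Function.Injective (pev1 (redK ℓ jR)) := pev1_injective_of_indep hn hind
  have hinjQ : Function.Injective (pev1 jq) := by
    have := pev1_incQ_injective ℓ hinj
    rwa [hjQ] at this
  have hj0 : jq ≠ 0 := jq_ne_zero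
  have hjB : jq ∈ Bsub ℓ jR uR := by
    have := j_mem_Bsub ℓ jR uR
    rwa [hjQ] at this
  have hjinvB : jq⁻¹ ∈ Bsub ℓ jR uR := by
    have := jinv_mem_Bsub ℓ jR uR (by rw [hjQ]; exact hj0)
    rwa [hjQ] at this
  have hsB : ∀ s ∈ ({jq, jq⁻¹} : Set (LaurentSeries ℚ)), s ∈ Bsub ℓ jR uR := by
    intro s hs
    rcases hs with rfl | hs
    · exact hjB
    · rw [Set.mem_singleton_iff] at hs; rw [hs]; exact hjinvB
  have hTR : ∀ x ∈ IntermediateField.adjoin ℚ ({jq, u} : Set (LaurentSeries ℚ)),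
      InT (incQ ℓ jR) (incQ ℓ uR) x := by
    intro x hx
    rw [hjQ, huQ]; exact hT x hx
  refine ⟨u, Bsub ℓ jR uR, rho ℓ jR uR hinj, hD3, ?_, ?_, ?_⟩
  · -- K3
    intro x hx s hs hint
    obtain ⟨p, hpm, hpint, hpx⟩ := hint
    set q : (LaurentSeries ℚ)[X] := p.map (evJ s) with hq
    have hqm : q.Monic := hpm.map _
    have hqc : (↑q.coeffs : Set (LaurentSeries ℚ)) ⊆ (Bsub ℓ jR uR) := by
      intro c hc
      obtain ⟨i, -, rfl⟩ := (Polynomial.mem_coeffs_iff).mp hc
      rw [hq, coeff_map]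
      exact evJ_mem_Bsub ℓ (hsB s hs) _ (hpint i)
    refine mem_Bsub_of_isIntegral ℓ χR hχRm hχRd hχRu hind hinj (hTR x hx)
      (q.toSubring (Bsub ℓ jR uR) hqc) ((monic_toSubring q _ hqc).mpr hqm) ?_
    rw [← eval_map, map_toSubring, hq, eval_map]
    exact hpx
  · -- kernel
    intro y hy
    exact rho_ker ℓ χR hχRm hχRd hχRu hind hinj y hy
  · -- K4
    intro z hzB _ s hs hint
    obtain ⟨p, hpm, hpint, hpz⟩ := hint
    obtain ⟨pR, hpR⟩ := exists_lift_ratLoc2 ℓ p hpint
    have hpRm : pR.Monic := monic_of_injective hι1 (by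
      have : Polynomial.map (mapRingHom ι) pR = (mapRingHom (mapRingHom ι)) pR := rfl
      rw [this, hpR]; exact hpm)
    have hts : Function.Injective (pev1 s) := by
      rcases hs with rfl | hs
      · exact hinjQ
      · rw [Set.mem_singleton_iff] at hs; rw [hs]; exact pev1_inv_injective hinjQ
    have hb : ∃ fR : (↥(GaloisRep.ratLocalizedAt ℓ))[X][X], fR.leadingCoeff.map (resR ℓ) ≠ 0 ∧
        pev2 s z ((mapRingHom (mapRingHom (GaloisRep.ratLocalizedAt ℓ).subtype)) fR) = 0 := by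
      rcases hs with rfl | hs
      · have := exists_root_poly_j ℓ χR hχRm hχRu hzB
        rwa [hjQ] at this
      · rw [Set.mem_singleton_iff] at hs
        have := exists_root_poly_jinv ℓ χR hχRm hχRu (by rw [hjQ]; exact hj0) hzB
        rw [hjQ] at this
        rw [hs]; exact this
    obtain ⟨mR, hmRm, hmRz⟩ := exists_monic_of_ell_mul ℓ s z hts hb pR hpRm
      (by rw [hpR, pev2_eq_eval₂_evJ]; exact hpz)
    exact ⟨(mapRingHom (mapRingHom (GaloisRep.ratLocalizedAt ℓ).subtype)) mR, hmRm.map _,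
      coeff_mem_of_map ℓ mR, by rw [← pev2_eq_eval₂_evJ]; exact hmRz⟩

end Main

end

end Fermat.Agent.S28
end MergeWrap_S28_RedMain

section MergeWrap_Lib_GaussVal_Modular -- from Lib/GaussVal/Modular.lean

/-!
# Gauss valuation (cluster B): the modular instance (G7)

`L` a field of characteristic `0`, `A` a valuation subring of `L` with `ℓ ∈ 𝔪_A`, `ℓ ∤ N`.
`ModData A N` packages: the formal unit `u = q^a E` of S28, a monic `χ ∈ A[Y][X]` of degree `n`
with `χ(j,u) = 0`, independence of `1, ū, …, ū^{n-1}` over `k[j̄]` (`k` the residue field of `A`),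
and `laurentBaseChange L (modularFunctionFieldFull N) ⊆ L(j)[u]`.
`nonempty_modData` : such data exist (from S28: `thmA`, `descent_main`, D3, `order_lemma`).
So all results of `Props.lean` apply to `F = modularFunctionFieldBar N` with no extra hypothesis.
-/

set_option autoImplicit false

namespace Fermat.Agent.GaussVal

open Polynomial ModularCurve Fermat.Agent.S28

noncomputable section

variable {L : Type*} [Field L] [Algebra ℚ L]

section RatLoc

variable (A : ValuationSubring L) (ℓ : ℕ)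

omit [Algebra ℚ L] in
theorem natCast_isUnit_of_coprime (hA : (ℓ : L) ∈ A.nonunits) {d : ℕ} (hd : d.Coprime ℓ) :
    IsUnit ((d : ℕ) : A) := by
  by_contra hnu
  have hd_mem : ((d : ℕ) : A) ∈ IsLocalRing.maximalIdeal A :=
    (IsLocalRing.mem_maximalIdeal _).mpr hnu
  have hℓ_mem : ((ℓ : ℕ) : A) ∈ IsLocalRing.maximalIdeal A := by
    apply ValuationSubring.coe_mem_nonunits_iff.mp
    have e : (((ℓ : ℕ) : A) : L) = (ℓ : L) := rfl
    rw [e]; exact hA
  have hbez : ((Nat.gcdA d ℓ : ℤ) : A) * ((d : ℕ) : A) + ((Nat.gcdB d ℓ : ℤ) : A) * ((ℓ : ℕ) : A) = 1 := by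
    have h := Nat.gcd_eq_gcd_ab d ℓ
    have hd1 : Nat.gcd d ℓ = 1 := hd
    rw [hd1] at h
    have h2 : (((1 : ℕ) : ℤ) : A) = (((d : ℤ) * Nat.gcdA d ℓ + (ℓ : ℤ) * Nat.gcdB d ℓ : ℤ) : A) := by
      rw [h]
    push_cast at h2
    rw [h2]; ring
  have h1 : (1 : A) ∈ IsLocalRing.maximalIdeal A := by
    rw [← hbez]
    exact Ideal.add_mem _ (Ideal.mul_mem_left _ _ hd_mem) (Ideal.mul_mem_left _ _ hℓ_mem)
  exact (Ideal.ne_top_iff_one _).mp (IsLocalRing.maximalIdeal.isMaximal A).ne_top h1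

theorem algebraMap_rat_mem (hA : (ℓ : L) ∈ A.nonunits) {q : ℚ}
    (hq : q ∈ GaloisRep.ratLocalizedAt ℓ) : algebraMap ℚ L q ∈ A := by
  have hu := natCast_isUnit_of_coprime A ℓ hA (d := q.den) hq
  obtain ⟨v, hv⟩ := hu
  have hval : ((v : A) : L) = (q.den : L) := by rw [hv]; simp
  have hden : (q.den : L) ≠ 0 := by
    rw [← hval]
    intro h0
    have : (v : A) = 0 := Subtype.ext h0
    exact v.ne_zero this
  have hinv : (((v⁻¹ : Aˣ) : A) : L) = (q.den : L)⁻¹ := by
    have h1 : ((v : A) : L) * (((v⁻¹ : Aˣ) : A) : L) = 1 := by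
      rw [← MulMemClass.coe_mul, Units.mul_inv]; rfl
    rw [hval] at h1
    exact eq_inv_of_mul_eq_one_right h1
  have hq' : algebraMap ℚ L q = (q.num : L) * (q.den : L)⁻¹ := by
    rw [eq_ratCast, Rat.cast_def, div_eq_mul_inv]
  rw [hq', ← hinv]
  exact A.mul_mem _ _ (by exact_mod_cast (intCast_mem A q.num)) (Subtype.mem _)

/-- The inclusion `ℤ_(ℓ) → A` for a valuation ring `A` over `ℓ`. -/
def ratLocToA (hA : (ℓ : L) ∈ A.nonunits) : ↥(GaloisRep.ratLocalizedAt ℓ) →+* A where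
  toFun q := ⟨algebraMap ℚ L (q : ℚ), algebraMap_rat_mem A ℓ hA q.2⟩
  map_one' := Subtype.ext (by simp)
  map_zero' := Subtype.ext (by simp)
  map_mul' x y := Subtype.ext (by
    show algebraMap ℚ L ((x * y : ↥(GaloisRep.ratLocalizedAt ℓ)) : ℚ) =
      algebraMap ℚ L (x : ℚ) * algebraMap ℚ L (y : ℚ)
    rw [Subring.coe_mul, map_mul])
  map_add' x y := Subtype.ext (by
    show algebraMap ℚ L ((x + y : ↥(GaloisRep.ratLocalizedAt ℓ)) : ℚ) =
      algebraMap ℚ L (x : ℚ) + algebraMap ℚ L (y : ℚ)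
    rw [Subring.coe_add, map_add])

theorem subtype_comp_ratLocToA (hA : (ℓ : L) ∈ A.nonunits) :
    A.subtype.comp (ratLocToA A ℓ hA) =
      (algebraMap ℚ L).comp (GaloisRep.ratLocalizedAt ℓ).subtype :=
  RingHom.ext fun _ => rfl

end RatLoc

/-- The `j`-series over any commutative ring, as a unit series. -/
theorem unitSeries_jNum (R : Type*) [CommRing R] : unitSeries R (-1) jNum = jqModC R := rfl

/-- Data of the modular Gauss valuation at a valuation ring `A`. -/
structure ModData (A : ValuationSubring L) (N : ℕ) where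
  n : ℕ
  hn : 0 < n
  a : ℤ
  E : PowerSeries ℤ
  hE : PowerSeries.constantCoeff E = 1
  χ : (↥A)[X][X]
  monic : χ.Monic
  natDegree_eq : χ.natDegree = n
  root : pev2 (jqModC A) (unitSeries A a E) χ = 0
  hind : IndepUpTo (jqModC (IsLocalRing.ResidueField A))
    (unitSeries (IsLocalRing.ResidueField A) a E) n
  le : ∀ x ∈ laurentBaseChange L (modularFunctionFieldFull N),
    InTL (jqModC L) (unitSeries L a E) x

namespace ModData

variable {A : ValuationSubring L} {N : ℕ} (D : ModData A N)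

/-- the formal unit over a ring -/
def u (R : Type*) [CommRing R] : LaurentSeries R := unitSeries R D.a D.E

omit [Algebra ℚ L] in
theorem coeffMap_jA : coeffMap A.subtype (jqModC A) = jqModC L := coeffMap_jqModC _

theorem coeffMap_uA : coeffMap A.subtype (D.u A) = D.u L := coeffMap_unitSeries _ _ _

omit [Algebra ℚ L] in
theorem red_jA : coeffMap (IsLocalRing.residue A) (jqModC A) = jqModC (IsLocalRing.ResidueField A) :=
  coeffMap_jqModC _

theorem red_uA : coeffMap (IsLocalRing.residue A) (D.u A) = D.u (IsLocalRing.ResidueField A) :=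
  coeffMap_unitSeries _ _ _

theorem hind' : IndepUpTo (coeffMap (IsLocalRing.residue A) (jqModC A))
    (coeffMap (IsLocalRing.residue A) (D.u A)) D.n := by
  rw [red_jA, red_uA]; exact D.hind

include D in
theorem hinj : Function.Injective (pev1 (coeffMap (IsLocalRing.residue A) (jqModC A))) :=
  pev1_injective_of_indep D.hn D.hind'

theorem root' : pev2 (jqModC A) (D.u A) D.χ = 0 := D.root

theorem inTL_of_mem {x : LaurentSeries L}
    (hx : x ∈ laurentBaseChange L (modularFunctionFieldFull N)) :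
    InTL (coeffMap A.subtype (jqModC A)) (coeffMap A.subtype (D.u A)) x := by
  rw [coeffMap_jA, coeffMap_uA]; exact D.le x hx

end ModData

section Exists

variable (A : ValuationSubring L) (ℓ : ℕ) [Fact ℓ.Prime] (N : ℕ) [NeZero N]

theorem coeffEmb_inTL {u : LaurentSeries ℚ} {x : LaurentSeries ℚ} (hx : InT jq u x) :
    InTL (jqModC L) (coeffEmb L u) (coeffEmb L x) := by
  obtain ⟨g, hg, P, hP⟩ := hx
  have hinj : Function.Injective (algebraMap ℚ L) := (algebraMap ℚ L).injective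
  refine ⟨g.map (algebraMap ℚ L), ?_, P.map (mapRingHom (algebraMap ℚ L)), ?_⟩
  · intro h0
    exact hg (Polynomial.map_injective _ hinj (by rw [h0, Polynomial.map_zero]))
  · have hj : coeffEmb L jq = jqModC L := by
      rw [← jqModC_rat]; exact coeffMap_jqModC _
    have h := congrArg (coeffEmb L) hP
    rw [map_mul] at h
    rw [← hj]
    show coeffEmb L x * pev1 (coeffMap (algebraMap ℚ L) jq) (g.map (algebraMap ℚ L)) =
      pev2 (coeffMap (algebraMap ℚ L) jq) (coeffMap (algebraMap ℚ L) u)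
        (P.map (mapRingHom (algebraMap ℚ L)))
    rw [← coeffMap_pev1, ← coeffMap_pev2]
    exact h

omit [NeZero N] [Fact ℓ.Prime] in
/-- The modular Gauss data from the output of the descent (witnesses explicit). -/
theorem exists_modData_of_descent (hA : (ℓ : L) ∈ A.nonunits) {n φ : ℕ} (hφ : 0 < φ)
    (u : LaurentSeries ℚ) (E : PowerSeries ℤ) (hE : PowerSeries.constantCoeff E = 1)
    (hu_eq' : u = unitSeries ℚ (((φ * (n - 1) : ℕ) : ℤ)) E)
    (χQ : ℚ[X][X]) (hχm : χQ.Monic) (hχd : χQ.natDegree = n)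
    (hχc : ∀ i, i < n → (χQ.coeff i).natDegree + φ * i ≤ φ * n)
    (hχint : ∀ i k, (χQ.coeff i).coeff k ∈ GaloisRep.ratLocalizedAt ℓ)
    (hχu : χQ.eval₂ (evJ jq) u = 0)
    (hD3 : modularFunctionFieldFull N ≤
      IntermediateField.adjoin ℚ ({jq, u} : Set (LaurentSeries ℚ))) :
    ∃ D : ModData A N, D.n = n ∧ D.a = (((φ * (n - 1) : ℕ) : ℤ)) ∧ D.E = E := by
  classical
  have hT : ∀ x ∈ IntermediateField.adjoin ℚ ({jq, u} : Set (LaurentSeries ℚ)), InT jq u x :=
    fun x hx => inT_of_mem_adjoin' jq u ordV_jq χQ hχm hχu hx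
  set a : ℤ := ((φ * (n - 1) : ℕ) : ℤ) with ha
  set k := IsLocalRing.ResidueField A with hk
  set res : A →+* k := IsLocalRing.residue A with hres
  set ι₀ := (GaloisRep.ratLocalizedAt ℓ).subtype with hι₀
  set θ := ratLocToA A ℓ hA with hθ
  have hθι : A.subtype.comp θ = (algebraMap ℚ L).comp ι₀ := subtype_comp_ratLocToA A ℓ hA
  have hθinj : Function.Injective θ := by
    intro x y hxy
    have h1 := congrArg A.subtype hxy
    have h2 : (algebraMap ℚ L) (ι₀ x) = (algebraMap ℚ L) (ι₀ y) := h1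
    exact Subtype.val_injective ((algebraMap ℚ L).injective h2)
  have hι₀1 : Function.Injective (mapRingHom ι₀) :=
    Polynomial.map_injective ι₀ Subtype.val_injective
  obtain ⟨χR, hχR⟩ := exists_lift_ratLoc2 ℓ χQ hχint
  have hχRm : χR.Monic := monic_of_injective hι₀1 (by
    have : Polynomial.map (mapRingHom ι₀) χR = (mapRingHom (mapRingHom ι₀)) χR := rfl
    rw [this, hχR]; exact hχm)
  have hχRd : χR.natDegree = n := by
    rw [← hχd, ← hχR]; exact (natDegree_map_eq_of_injective hι₀1 _).symm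
  set χA : (↥A)[X][X] := χR.map (mapRingHom θ) with hχA
  have hχAm : χA.Monic := hχRm.map _
  have hχAd : χA.natDegree = n := by rw [← hχRd]; exact hχRm.natDegree_map _
  -- the root over `A`
  have hmapmap : (χA.map (mapRingHom A.subtype)) = χQ.map (mapRingHom (algebraMap ℚ L)) := by
    rw [hχA, Polynomial.map_map, ← hχR]
    show _ = (Polynomial.map (mapRingHom ι₀) χR).map (mapRingHom (algebraMap ℚ L))
    rw [Polynomial.map_map]
    congr 1
    rw [mapRingHom_comp, mapRingHom_comp, hθι]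
  have hrootA : pev2 (jqModC A) (unitSeries A a E) χA = 0 := by
    apply coeffMap_injective (f := A.subtype) Subtype.val_injective
    rw [coeffMap_pev2, map_zero, hmapmap, coeffMap_jqModC, coeffMap_unitSeries]
    have h1 : coeffMap (algebraMap ℚ L) (pev2 jq u χQ) = 0 := by
      rw [pev2_eq_eval₂_evJ, hχu, map_zero]
    rw [coeffMap_pev2, hu_eq', coeffMap_unitSeries, ← jqModC_rat, coeffMap_jqModC] at h1
    exact h1
  -- reduction
  set jk : LaurentSeries k := jqModC k with hjk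
  set uk : LaurentSeries k := unitSeries k a E with huk
  have hordj : ordV k jk = ((-1 : ℤ) : WithTop ℤ) := by
    rw [hjk, ← unitSeries_jNum]
    exact ordV_unitSeries (-1) jNum constantCoeff_jNum
  have hordu : ordV k uk = (a : WithTop ℤ) := ordV_unitSeries a E hE
  set χk : k[X][X] := χA.map (mapRingHom res) with hχk
  have hχkm : χk.Monic := hχAm.map _
  have hχkd : χk.natDegree = n := by rw [← hχAd]; exact hχAm.natDegree_map _
  have hχkc : ∀ i, i < n → (χk.coeff i).natDegree + φ * i ≤ φ * n := by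
    intro i hi
    refine le_trans (Nat.add_le_add_right ?_ _) (hχc i hi)
    rw [hχk, coeff_map, coe_mapRingHom, hχA, coeff_map, coe_mapRingHom]
    calc (((χR.coeff i).map θ).map res).natDegree ≤ ((χR.coeff i).map θ).natDegree :=
          natDegree_map_le
      _ ≤ (χR.coeff i).natDegree := natDegree_map_le
      _ = ((χR.coeff i).map ι₀).natDegree :=
          (natDegree_map_eq_of_injective Subtype.val_injective _).symm
      _ = (χQ.coeff i).natDegree := by
          rw [← hχR, coe_mapRingHom, coeff_map, coe_mapRingHom]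
  have hχku : pev2 jk uk χk = 0 := by
    have h := congrArg (coeffMap res) hrootA
    rw [coeffMap_pev2, map_zero, coeffMap_jqModC, coeffMap_unitSeries] at h
    exact h
  have huk0 : uk ≠ 0 := by
    intro h
    rw [h, AddValuation.map_zero] at hordu
    exact WithTop.top_ne_coe hordu
  have hind : IndepUpTo jk uk n := by
    intro P hP h0
    exact order_lemma jk uk hordj huk0 hφ χk hχkm hχkd hχkc
      (by rw [← pev2_eq_eval₂_evJ]; exact hχku) (by rw [hordu]) P hP
      (by rw [← pev2_eq_eval₂_evJ]; exact h0)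
  have hn : 0 < n := by
    rcases Nat.eq_zero_or_pos n with h | h
    · exfalso
      rw [h] at hχkd
      have h1 : χk = 1 := eq_one_of_monic_natDegree_zero hχkm hχkd
      rw [h1, map_one] at hχku
      exact one_ne_zero hχku
    · exact h
  -- `F_L ⊆ L(j)[u]`
  have hinjk : Function.Injective (pev1 jk) := pev1_injective_of_indep hn hind
  have hv := vTriple_valuationSubring A
  have hinjL : Function.Injective (pev1 (jqModC L)) := by
    have h := pev1_coeffMap_injective (jR := jqModC A) hv (by rw [coeffMap_jqModC]; exact hinjk)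
    rwa [coeffMap_jqModC] at h
  have hχLu : pev2 (jqModC L) (unitSeries L a E) (χA.map (mapRingHom A.subtype)) = 0 := by
    have h := congrArg (coeffMap A.subtype) hrootA
    rw [coeffMap_pev2, map_zero, coeffMap_jqModC, coeffMap_unitSeries] at h
    exact h
  have hle : ∀ x ∈ laurentBaseChange L (modularFunctionFieldFull N),
      InTL (jqModC L) (unitSeries L a E) x := by
    intro x hx
    have huL : coeffEmb L u = unitSeries L a E := by
      rw [hu_eq']; exact coeffMap_unitSeries _ _ _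
    induction hx using IntermediateField.adjoin_induction with
    | mem x hx =>
      obtain ⟨y, hy, rfl⟩ := hx
      have := coeffEmb_inTL (L := L) (hT y (hD3 hy))
      rwa [huL] at this
    | algebraMap c => exact inTL_algebraMap c
    | add x y _ _ hx hy => exact inTL_add hx hy
    | inv x _ hx => exact inTL_inv hinjL _ (hχAm.map _) hχLu hx
    | mul x y _ _ hx hy => exact inTL_mul hx hy
  exact ⟨{ n := n, hn := hn, a := a, E := E, hE := hE, χ := χA, monic := hχAm,
           natDegree_eq := hχAd, root := hrootA, hind := hind, le := hle }, rfl, rfl, rfl⟩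

/-- **(G7)** the modular Gauss data exist for every valuation ring over `ℓ ∤ N`. -/
theorem nonempty_modData (hA : (ℓ : L) ∈ A.nonunits) (hℓN : ¬ ℓ ∣ N) :
    Nonempty (ModData A N) := by
  obtain ⟨n, φ, u, χQ, hφ, hu, hχm, hχd, hχc, hχint, hχu, hAd⟩ :=
    descent_main N ℓ hℓN (thmA N)
  have hD3 := modularFunctionFieldFull_le_adjoin' N hφ u hu χQ hχm hχd hχc hχu hAd
  obtain ⟨E, hE, hu_eq⟩ := hu
  obtain ⟨D, -⟩ := exists_modData_of_descent A ℓ N hA hφ u E hE hu_eq χQ hχm hχd hχc hχint hχu hD3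
  exact ⟨D⟩

end Exists

end

end Fermat.Agent.GaussVal
end MergeWrap_Lib_GaussVal_Modular
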