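import Mathlib
import Fermat.Agent.MU.S28.ThmA
import Fermat.Agent.MU.S28.DescentMain
import Fermat.Agent.MU.S28.DescentD3
import Fermat.Agent.MU.Lib.GaussVal.Modular
import Fermat.Agent.Lib.GaussInt.Basic
import Fermat.Agent.MU.Lib.IgusaDeg.UMem
import Fermat.Agent.MU.S28.ThmAFormal
import Fermat.Agent.Lib.FrobTrace.Residue

section MergeWrap_Lib_GaussVal_Explicit -- from Lib/GaussVal/Explicit.lean

set_option autoImplicit false

namespace Fermat.Agent.GaussVal

open UpperHalfPlane ModularForm MatrixGroups EisensteinSeries Polynomial SlashInvariantForm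
open Fermat.Agent.S23 ModularCurve
open Fermat.Agent.S28 Fermat.Agent.S28.QExp

noncomputable section

/-- `ThmAStatement` with the witnesses `n, φ, u` as parameters. -/
def ThmAFor (N n φ : ℕ) (u : LaurentSeries ℚ) : Prop :=
  ∃ (χ : Polynomial (Polynomial ℂ)) (c₀ : ℂ) (a b : ℕ),
    0 < φ ∧ IsMonicUnitSeries u (((φ * (n - 1) : ℕ) : ℤ)) ∧
    χ.Monic ∧ χ.natDegree = n ∧
    (∀ i, i < n → (χ.coeff i).natDegree + φ * i ≤ φ * n) ∧
    χ.eval₂ (evJ (toC ModularCurve.jq)) (toC u) = 0 ∧
    χ.coeff 0 = C c₀ ∧ 0 < a ∧ 0 < b ∧ (∀ p : ℕ, p.Prime → p ∣ a * b → p ∣ N) ∧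
    ‖c₀‖ * (b : ℝ) = (a : ℝ) ∧
    ∀ (d : ℕ) (_ : NeZero d), d ∣ N → ∃ A : Polynomial (Polynomial ℂ),
      toC (ModularCurve.qExpand ℚ d ModularCurve.jq) *
          (derivative χ).eval₂ (evJ (toC ModularCurve.jq)) (toC u) =
        A.eval₂ (evJ (toC ModularCurve.jq)) (toC u)

theorem ThmAFor.thmAStatement {N n φ : ℕ} {u : LaurentSeries ℚ} (h : ThmAFor N n φ u) :
    ThmAStatement N := by
  obtain ⟨χ, c₀, a, b, h⟩ := h
  exact ⟨n, φ, u, χ, c₀, a, b, h⟩

theorem thmA_of_inputs_for (N : ℕ) [NeZero N] (φ : ℕ) (hφ : 0 < φ)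
    (W : ModularForm (G0 N) (12 * (φ : ℤ)))
    (u : LaurentSeries ℚ)
    (hu : IsMonicUnitSeries u (((φ * (Fintype.card (Q N) - 1) : ℕ) : ℤ)))
    (hWu : HasQ (fun τ => W τ / discriminant τ ^ φ) (toC u))
    (hmain : ∃ C : ℂ, IsNUnit N ‖C‖ ∧ ∀ τ : ℍ,
      ∏ q : Q N, quotientFunc W q τ = C * discriminant τ ^ (φ * Fintype.card (Q N)))
    (hvd : ∀ d : ℕ, d ∣ N → ∃ v : ModularForm (G0 N) (12 * (d : ℤ)), ∀ τ : ℍ,
      v τ = E₄ (heckeDiagMatrix d • τ) ^ 3 * discriminant τ ^ d /
        discriminant (heckeDiagMatrix d • τ)) :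
    ThmAFor N (Fintype.card (Q N)) φ u := by
  classical
  set n := Fintype.card (Q N) with hn
  obtain ⟨χ, hmonic, hdeg, hbound, hconst, hroot, hcert⟩ :=
    wp11_exists_charPoly_certificate_all N φ W
  obtain ⟨C, hC, hnorm⟩ := hmain
  obtain ⟨a, b, ha, hb, hpa, hpb, hab⟩ := hC
  have hJ := thmA_hasQ_wp4J
  -- the constant term
  have hc0 : ∀ τ : ℍ, (χ.coeff 0).eval (wp4J τ) = (-1) ^ n * C := by
    intro τ
    rw [hconst τ, Finset.prod_div_distrib, hnorm τ, Finset.prod_const, Finset.card_univ,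
      ← pow_mul, ← hn, mul_div_assoc, div_self (pow_ne_zero _ (discriminant_ne_zero τ)),
      mul_one]
  have hcoeff0 : χ.coeff 0 = Polynomial.C ((-1) ^ n * C) := by
    have h1 := thmA_hasQ_evJ hJ (χ.coeff 0 - Polynomial.C ((-1) ^ n * C))
    have h2 := h1.eq_zero fun τ => by
      rw [eval_sub, eval_C, hc0 τ, sub_self]
    have h3 := evJ_injective (toC jq) thmA_ordV_toC_jq (h2.trans (map_zero _).symm)
    exact sub_eq_zero.mp h3
  refine ⟨χ, (-1) ^ n * C, a, b, hφ, hu, hmonic, hdeg, hbound, ?_, hcoeff0, ha, hb,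
    ?_, ?_, ?_⟩
  · -- the root
    exact (thmA_hasQ_biv hJ hWu χ).eq_zero hroot
  · intro p hp hpab
    rcases (Nat.Prime.dvd_mul hp).mp hpab with h | h
    exacts [hpa p hp h, hpb p hp h]
  · rw [norm_mul, norm_pow, norm_neg, norm_one, one_pow, one_mul, hab]
    have hb0 : (b : ℝ) ≠ 0 := by positivity
    field_simp
  · -- the certificates
    intro d hd0 hdN
    obtain ⟨v, hv⟩ := hvd d hdN
    obtain ⟨A, hA⟩ := hcert d v
    refine ⟨A, ?_⟩
    have hL := (thmA_hasQ_jd d).mul (thmA_hasQ_biv hJ hWu (derivative χ))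
    have hR := thmA_hasQ_biv hJ hWu A
    refine hL.eq_of_eq hR fun τ => ?_
    rw [Pi.mul_apply, ← hA τ]
    congr 1
    rw [hv τ, wp4J]
    have h1 := discriminant_ne_zero τ
    have h2 := discriminant_ne_zero (heckeDiagMatrix d • τ)
    field_simp

theorem thmA_for (N : ℕ) [NeZero N] :
    ThmAFor N (Fintype.card (Q N)) (unitPhi N) (thmA_formalU N) := by
  have hN : N ≠ 0 := NeZero.ne N
  obtain ⟨hE, hmain⟩ := @unit_main N _ (instFintypeQ (N := N))
  refine thmA_of_inputs_for N (unitPhi N) (unitPhi_pos N) (wN N) (thmA_formalU N) ?_ ?_ hmain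
    (fun d hd => exists_vd N d hd)
  · have h := isMonicUnitSeries_formalU N hN
    have hn : 0 < Fintype.card (Q N) := card_Q_pos
    have e : unitE N - (unitPhi N : ℤ) = ((unitPhi N * (Fintype.card (Q N) - 1) : ℕ) : ℤ) := by
      rw [hE, Nat.cast_mul, Nat.cast_sub hn]
      push_cast
      ring
    rwa [e] at h
  · rw [thmA_formalU, thmA_toC_formalQuot]
    exact thmA_hasQ_unit (unitSet N) (unitM N)
      (fun δ hδ => wp3b_ne_zero_of_mem_unitSet hN hδ) (unitPhi N) (coe_wN N)

theorem descent_main_for (N ℓ : ℕ) [NeZero N] [Fact ℓ.Prime] (hℓN : ¬ ℓ ∣ N) {n φ : ℕ}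
    {u : LaurentSeries ℚ} (h : ThmAFor N n φ u) :
    ∃ (χQ : Polynomial (Polynomial ℚ)),
      0 < φ ∧ IsMonicUnitSeries u (((φ * (n - 1) : ℕ) : ℤ)) ∧
      χQ.Monic ∧ χQ.natDegree = n ∧
      (∀ i, i < n → (χQ.coeff i).natDegree + φ * i ≤ φ * n) ∧
      (∀ i k, (χQ.coeff i).coeff k ∈ GaloisRep.ratLocalizedAt ℓ) ∧
      χQ.eval₂ (evJ ModularCurve.jq) u = 0 ∧
      ∀ (d : ℕ) (_ : NeZero d), d ∣ N → ∃ A : Polynomial (Polynomial ℚ),
        ModularCurve.qExpand ℚ d ModularCurve.jq *
            (Polynomial.derivative χQ).eval₂ (evJ ModularCurve.jq) u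
          = A.eval₂ (evJ ModularCurve.jq) u := by
  obtain ⟨χ, c₀, a, b, hφ, hu, hχm, hχd, hχc, hχu, hχ0, ha, hb, hab, hnorm, hA⟩ := h
  have hℓ : ℓ.Prime := Fact.out
  obtain ⟨E, hE1, huE⟩ := hu
  have huE' : u = muSeries ℚ (((φ * (n - 1) : ℕ) : ℤ)) E := huE
  have hu0 : u ≠ 0 := by rw [huE']; exact muSeries_ne_zero _ hE1
  have huord : ordV ℚ u = ((((φ * (n - 1) : ℕ) : ℤ)) : WithTop ℤ) := by
    rw [huE']; exact ordV_muSeries _ hE1
  -- D1
  have hχu' : pev2 (coeffEmb ℂ jq) (coeffEmb ℂ u) χ = 0 := by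
    rw [pev2_eq_eval₂_evJ]; exact hχu
  obtain ⟨χQ, hmap, hQm, hQd, hQc, hQu⟩ :=
    chi_rational jq u ordV_jq hu0 hφ (le_of_eq huord.symm) χ hχm hχd hχc hχu'
  -- the constant term
  have hcoeff : ∀ i k, algebraMap ℚ ℂ ((χQ.coeff i).coeff k) = (χ.coeff i).coeff k := by
    intro i k
    rw [← hmap, coeff_map, coe_mapRingHom, coeff_map]
  set q₀ : ℚ := (χQ.coeff 0).coeff 0 with hq₀
  have hq0 : χQ.coeff 0 = C q₀ := by
    ext k
    rcases Nat.eq_zero_or_pos k with rfl | hk
    · rw [coeff_C_zero]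
    · rw [coeff_C, if_neg hk.ne']
      apply (algebraMap ℚ ℂ).injective
      rw [hcoeff, hχ0, coeff_C, if_neg hk.ne', map_zero]
  have hc : ((q₀ : ℚ) : ℂ) = c₀ := by
    have := hcoeff 0 0
    rw [hχ0, coeff_C_zero] at this
    exact this
  have hnu : IsNUnit N ((|q₀| : ℚ) : ℝ) := by
    refine ⟨a, b, ha, hb, fun p hp hpa => hab p hp (hpa.mul_right b),
      fun p hp hpb => hab p hp (hpb.mul_left a), ?_⟩
    have hb0 : (b : ℝ) ≠ 0 := by positivity
    rw [eq_div_iff hb0, ← hnorm, ← hc]
    congr 1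
    rw [Rat.cast_abs]
    exact (Complex.norm_ratCast q₀).symm
  have hq₀mem : q₀ ∈ GaloisRep.ratLocalizedAt ℓ :=
    mem_ratLocalizedAt_of_padicValRat_eq_zero hℓ (hnu.padicValRat_eq_zero hℓ hℓN)
  -- D2
  set jR : LaurentSeries ↥(GaloisRep.ratLocalizedAt ℓ) := muSeries _ (-1) jNum with hjR
  set uR : LaurentSeries ↥(GaloisRep.ratLocalizedAt ℓ) :=
    muSeries _ (((φ * (n - 1) : ℕ) : ℤ)) E with huR
  have hjRQ : coeffMap (GaloisRep.ratLocalizedAt ℓ).subtype jR = jq := by
    rw [hjR, coeffMap_muSeries, jq_eq_muSeries]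
  have huRQ : coeffMap (GaloisRep.ratLocalizedAt ℓ).subtype uR = u := by
    rw [huR, coeffMap_muSeries, huE']
  obtain ⟨χR, hRmap, -⟩ := exists_chi_integral ℓ hφ jR uR
    (by rw [hjR, coeffMap_muSeries]; exact ordV_muSeries (-1) constantCoeff_jNum)
    (by rw [huR, coeffMap_muSeries]; exact ordV_muSeries _ hE1)
    χQ hQm hQd hQc ⟨q₀, hq₀mem⟩ hq0 (by rw [hjRQ, huRQ]; exact hQu)
  refine ⟨χQ, hφ, ⟨E, hE1, huE⟩, hQm, hQd, hQc, ?_, ?_, ?_⟩
  · intro i k
    rw [← hRmap, coeff_map, coe_mapRingHom, coeff_map]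
    exact Subtype.property _
  · rw [← pev2_eq_eval₂_evJ]; exact hQu
  · intro d hd hdN
    obtain ⟨A, hA'⟩ := hA d hd hdN
    obtain ⟨r, hr⟩ := exists_retraction ℂ
    refine ⟨polyRet2 r A, ?_⟩
    have key := retract_relation_mul (L := ℂ) jq u (qExpand ℚ d jq) r (derivative χ) A (by
      rw [pev2_eq_eval₂_evJ, pev2_eq_eval₂_evJ]; exact hA')
    rw [← hmap, derivative_map, polyRet2_map r hr] at key
    rw [← pev2_eq_eval₂_evJ, ← pev2_eq_eval₂_evJ]
    exact key

end

end Fermat.Agent.GaussVal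

namespace Fermat.Agent.GaussVal

open Polynomial ModularCurve Fermat.Agent.S23 Fermat.Agent.S28

noncomputable section

variable {L : Type*} [Field L] [Algebra ℚ L]

/-- unit series with the same image over `ℚ` have the same integral power series -/
theorem unitSeries_injective {a a' : ℤ} {E E' : PowerSeries ℤ}
    (hE : PowerSeries.constantCoeff E = 1) (hE' : PowerSeries.constantCoeff E' = 1)
    (h : unitSeries ℚ a E = unitSeries ℚ a' E') : a = a' ∧ E = E' := by
  have ha : a = a' := by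
    have h1 := ordV_unitSeries (k := ℚ) a E hE
    have h2 := ordV_unitSeries (k := ℚ) a' E' hE'
    rw [h, h2] at h1
    exact_mod_cast h1.symm
  subst ha
  refine ⟨rfl, ?_⟩
  ext m
  have h3 := congrArg (fun x : LaurentSeries ℚ => x.coeff (a + m)) h
  simp only [unitSeries, HahnSeries.coeff_single_mul, one_mul, add_sub_cancel_left,
    HahnSeries.ofPowerSeries_apply_coeff, PowerSeries.coeff_map] at h3
  exact Int.cast_injective (α := ℚ) (by simpa using h3)

/-- **(G7, explicit)** the modular Gauss data with `n = #Q(N)` and `u = thmA_formalU N`. -/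
theorem exists_modData_explicit (A : ValuationSubring L) (ℓ : ℕ) [Fact ℓ.Prime] (N : ℕ) [NeZero N]
    (hA : (ℓ : L) ∈ A.nonunits) (hℓN : ¬ ℓ ∣ N) :
    ∃ D : ModData A N, D.n = Fintype.card (Q N) ∧
      thmA_formalU N = unitSeries ℚ D.a D.E ∧
      D.a = (((unitPhi N * (Fintype.card (Q N) - 1) : ℕ) : ℤ)) := by
  obtain ⟨χQ, hφ, hu, hχm, hχd, hχc, hχint, hχu, hAd⟩ := descent_main_for N ℓ hℓN (thmA_for N)
  have hD3 := modularFunctionFieldFull_le_adjoin' N hφ (thmA_formalU N) hu χQ hχm hχd hχc hχu hAd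
  obtain ⟨E, hE, hu_eq⟩ := hu
  obtain ⟨D, hn, ha, hDE⟩ := exists_modData_of_descent A ℓ N hA hφ (thmA_formalU N) E hE hu_eq
    χQ hχm hχd hχc hχint hχu hD3
  refine ⟨D, hn, ?_, ha⟩
  rw [ha, hDE]; exact hu_eq

end

end Fermat.Agent.GaussVal
end MergeWrap_Lib_GaussVal_Explicit

section MergeWrap_Lib_GaussVal_ResField -- from Lib/GaussVal/ResField.lean

/-!
# Gauss valuation (cluster B): the residue field of the modular Gauss valuation  (R3)

`L` a field of characteristic `0`, `A` a valuation subring of `L`, `k` its residue field,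
`D : ModData A N` (exists when `A` lies over `ℓ ∤ N`), `F_L = laurentBaseChange L (modularFunctionFieldFull N)`,
`F_k = modularFunctionFieldFullC k N`.

* `ModData.red_mem_adjoin` : the reduction of an integral series of `F_L` lies in `k(j̄, ū)`;
* `ModData.fullC_le_adjoin` : `F_k ⊆ k(j̄, ū)`;
* `ModData.red_mem_fullC`   : **(R3a)** if `ū ∈ F_k`, the reduction of an integral series of `F_L` lies in `F_k`;
* `ModData.gaussResFun_mem_fullC` : **(R3a)** in the shape of `Lib/GaussInt`;
* `exists_gaussResFun_eq` : **(R3b)** every element of `F_k` is a residue (no hypothesis).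
-/

set_option autoImplicit false

namespace Fermat.Agent.GaussVal

open Polynomial ModularCurve Fermat.Agent.S28 IntermediateField

noncomputable section

variable {L : Type*} [Field L] [Algebra ℚ L]

namespace ModData

variable {A : ValuationSubring L} {N : ℕ} (D : ModData A N)

/-- the Gauss ring attached to the data -/
abbrev OvD : Subring (LaurentSeries L) :=
  Ov A.subtype (IsLocalRing.residue A) (jqModC A) (D.u A)

/-- the reduction map attached to the data -/
def rhoD : ↥D.OvD →+* LaurentSeries (IsLocalRing.ResidueField A) :=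
  rho A.subtype (IsLocalRing.residue A) (jqModC A) (D.u A) Subtype.val_injective D.hinj

theorem mem_OvD_of_integral (Y : LaurentSeries A)
    (hY : coeffMap A.subtype Y ∈ laurentBaseChange L (modularFunctionFieldFull N)) :
    coeffMap A.subtype Y ∈ D.OvD :=
  coeffMap_mem_Ov (vTriple_valuationSubring A) D.χ D.monic D.natDegree_eq D.hn D.root' D.hind'
    D.hinj Y (D.inTL_of_mem hY)

theorem rhoD_integral (Y : LaurentSeries A)
    (hY : coeffMap A.subtype Y ∈ laurentBaseChange L (modularFunctionFieldFull N)) :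
    D.rhoD ⟨_, D.mem_OvD_of_integral Y hY⟩ = coeffMap (IsLocalRing.residue A) Y :=
  rho_coeffMap Subtype.val_injective D.hinj Y (D.mem_OvD_of_integral Y hY)

/-- the reduction of an integral series of `F_L` has a rational representation in `j̄, ū` -/
theorem red_inTL (Y : LaurentSeries A)
    (hY : coeffMap A.subtype Y ∈ laurentBaseChange L (modularFunctionFieldFull N)) :
    InTL (jqModC (IsLocalRing.ResidueField A)) (D.u (IsLocalRing.ResidueField A))
      (coeffMap (IsLocalRing.residue A) Y) := by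
  have h := (rho_mem_range_iff (vTriple_valuationSubring A) IsLocalRing.residue_surjective D.hinj
    (coeffMap (IsLocalRing.residue A) Y)).mp ⟨⟨_, D.mem_OvD_of_integral Y hY⟩, D.rhoD_integral Y hY⟩
  rwa [coeffMap_jqModC, D.red_uA] at h

include D in
theorem hinjk : Function.Injective (pev1 (jqModC (IsLocalRing.ResidueField A))) := by
  have := D.hinj
  rwa [coeffMap_jqModC] at this

/-- the reduction of an integral series of `F_L` lies in `k(j̄, ū)` -/
theorem red_mem_adjoin (Y : LaurentSeries A)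
    (hY : coeffMap A.subtype Y ∈ laurentBaseChange L (modularFunctionFieldFull N)) :
    coeffMap (IsLocalRing.residue A) Y ∈
      adjoin (IsLocalRing.ResidueField A)
        ({jqModC (IsLocalRing.ResidueField A), D.u (IsLocalRing.ResidueField A)} :
          Set (LaurentSeries (IsLocalRing.ResidueField A))) :=
  mem_adjoin_of_inTL D.hinjk (D.red_inTL Y hY)

omit [Algebra ℚ L] in
theorem coeffMap_qExpand_jA (f : A →+* L) (d : ℕ) [NeZero d] :
    coeffMap f (qExpand A d (jqModC A)) = qExpand L d (jqModC L) := by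
  rw [coeffMap_qExpand, coeffMap_jqModC]

/-- `j(q^d)` over `L` lies in `F_L`. -/
theorem qExpand_jq_mem_bar {d : ℕ} [NeZero d] (hd : d ∣ N) :
    qExpand L d (jqModC L) ∈ laurentBaseChange L (modularFunctionFieldFull N) := by
  have h := coeffEmb_mem_laurentBaseChange L (jqd_mem_full N hd)
  have e : coeffEmb L (qExpand ℚ d jq) = qExpand L d (jqModC L) := by
    show coeffMap (algebraMap ℚ L) (qExpand ℚ d jq) = _
    rw [coeffMap_qExpand, ← jqModC_rat, coeffMap_jqModC]
  rwa [e] at h

/-- `F_k ⊆ k(j̄, ū)`. -/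
theorem fullC_le_adjoin :
    modularFunctionFieldFullC (IsLocalRing.ResidueField A) N ≤
      adjoin (IsLocalRing.ResidueField A)
        ({jqModC (IsLocalRing.ResidueField A), D.u (IsLocalRing.ResidueField A)} :
          Set (LaurentSeries (IsLocalRing.ResidueField A))) := by
  rw [modularFunctionFieldFullC, adjoin_le_iff]
  rintro x ⟨d, hne, hdvd, rfl⟩
  have := hne
  have hY : coeffMap A.subtype (qExpand A d (jqModC A)) ∈
      laurentBaseChange L (modularFunctionFieldFull N) := by
    rw [coeffMap_qExpand, coeffMap_jqModC]; exact qExpand_jq_mem_bar hdvd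
  have h := D.red_mem_adjoin _ hY
  rwa [coeffMap_qExpand, coeffMap_jqModC] at h

/-- if `ū ∈ F_k` then `k(j̄, ū) = F_k`. -/
theorem adjoin_eq_fullC
    (hub : D.u (IsLocalRing.ResidueField A) ∈
      modularFunctionFieldFullC (IsLocalRing.ResidueField A) N) :
    adjoin (IsLocalRing.ResidueField A)
        ({jqModC (IsLocalRing.ResidueField A), D.u (IsLocalRing.ResidueField A)} :
          Set (LaurentSeries (IsLocalRing.ResidueField A))) =
      modularFunctionFieldFullC (IsLocalRing.ResidueField A) N := by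
  refine le_antisymm ?_ D.fullC_le_adjoin
  rw [adjoin_le_iff]
  rintro x (rfl | hx)
  · exact jqModC_mem_full _ N
  · rw [Set.mem_singleton_iff] at hx; rw [hx]; exact hub

/-- **(R3a)** if `ū ∈ F_k`, the reduction of an integral series of `F_L` lies in `F_k`. -/
theorem red_mem_fullC
    (hub : D.u (IsLocalRing.ResidueField A) ∈
      modularFunctionFieldFullC (IsLocalRing.ResidueField A) N)
    (Y : LaurentSeries A)
    (hY : coeffMap A.subtype Y ∈ laurentBaseChange L (modularFunctionFieldFull N)) :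
    coeffMap (IsLocalRing.residue A) Y ∈
      modularFunctionFieldFullC (IsLocalRing.ResidueField A) N := by
  rw [← D.adjoin_eq_fullC hub]; exact D.red_mem_adjoin Y hY

/-- **(R3a)** in the shape of `Lib/GaussInt`: residues of the Gauss ring of `F_L` lie in `F_k`. -/
theorem gaussResFun_mem_fullC
    (hub : D.u (IsLocalRing.ResidueField A) ∈
      modularFunctionFieldFullC (IsLocalRing.ResidueField A) N)
    {f : LaurentSeries L}
    (hf : f ∈ GaussInt.gaussSub A (laurentBaseChange L (modularFunctionFieldFull N))) :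
    GaussInt.gaussResFun A (laurentBaseChange L (modularFunctionFieldFull N)) f ∈
      modularFunctionFieldFullC (IsLocalRing.ResidueField A) N := by
  obtain ⟨Y₁, Y₂, h⟩ := hf
  rw [GaussInt.gaussResFun_eq h]
  exact div_mem (D.red_mem_fullC hub Y₁ h.mem₁) (D.red_mem_fullC hub Y₂ h.mem₂)

end ModData

section Surj

variable (A : ValuationSubring L) (N : ℕ)

omit [Algebra ℚ L] in
/-- additivity of the residue function on the Gauss ring -/
theorem gaussResFun_add' (F : IntermediateField L (LaurentSeries L)) {f g : LaurentSeries L}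
    (hf : f ∈ GaussInt.gaussSub A F) (hg : g ∈ GaussInt.gaussSub A F) :
    GaussInt.gaussResFun A F (f + g) = GaussInt.gaussResFun A F f + GaussInt.gaussResFun A F g := by
  have h := map_add (GaussInt.gaussRes A F) ⟨f, hf⟩ ⟨g, hg⟩
  rw [GaussInt.gaussRes_apply, GaussInt.gaussRes_apply, GaussInt.gaussRes_apply] at h
  exact h

omit [Algebra ℚ L] in
/-- multiplicativity of the residue function on the Gauss ring -/
theorem gaussResFun_mul' (F : IntermediateField L (LaurentSeries L)) {f g : LaurentSeries L}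
    (hf : f ∈ GaussInt.gaussSub A F) (hg : g ∈ GaussInt.gaussSub A F) :
    GaussInt.gaussResFun A F (f * g) = GaussInt.gaussResFun A F f * GaussInt.gaussResFun A F g := by
  have h := map_mul (GaussInt.gaussRes A F) ⟨f, hf⟩ ⟨g, hg⟩
  rw [GaussInt.gaussRes_apply, GaussInt.gaussRes_apply, GaussInt.gaussRes_apply] at h
  exact h

/-- **(R3b)** every element of `F_k` is the residue of an element of the Gauss ring of `F_L`. -/
theorem exists_gaussResFun_eq {z : LaurentSeries (IsLocalRing.ResidueField A)}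
    (hz : z ∈ modularFunctionFieldFullC (IsLocalRing.ResidueField A) N) :
    ∃ f ∈ GaussInt.gaussSub A (laurentBaseChange L (modularFunctionFieldFull N)),
      GaussInt.gaussResFun A (laurentBaseChange L (modularFunctionFieldFull N)) f = z := by
  rw [modularFunctionFieldFullC] at hz
  induction hz using IntermediateField.adjoin_induction with
  | mem x hx =>
    obtain ⟨d, hne, hdvd, rfl⟩ := hx
    have := hne
    have hY : GaussInt.emb A (qExpand A d (jqModC A)) ∈
        laurentBaseChange L (modularFunctionFieldFull N) := by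
      show coeffMap A.subtype (qExpand A d (jqModC A)) ∈ _
      rw [coeffMap_qExpand, coeffMap_jqModC]; exact ModData.qExpand_jq_mem_bar hdvd
    refine ⟨_, GaussInt.emb_mem_gaussSub hY, ?_⟩
    rw [GaussInt.gaussResFun_emb hY]
    show coeffMap (IsLocalRing.residue A) (qExpand A d (jqModC A)) = _
    rw [coeffMap_qExpand, coeffMap_jqModC]
  | algebraMap c =>
    obtain ⟨a, rfl⟩ := IsLocalRing.residue_surjective c
    exact ⟨_, GaussInt.algebraMap_mem_gaussSub a.2, GaussInt.gaussResFun_algebraMap a.2⟩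
  | add x y _ _ hx hy =>
    obtain ⟨f, hf, rfl⟩ := hx
    obtain ⟨g, hg, rfl⟩ := hy
    exact ⟨f + g, Subring.add_mem _ hf hg, gaussResFun_add' A _ hf hg⟩
  | mul x y _ _ hx hy =>
    obtain ⟨f, hf, rfl⟩ := hx
    obtain ⟨g, hg, rfl⟩ := hy
    exact ⟨f * g, Subring.mul_mem _ hf hg, gaussResFun_mul' A _ hf hg⟩
  | inv x _ hx =>
    obtain ⟨f, hf, rfl⟩ := hx
    by_cases h0 : GaussInt.gaussResFun A (laurentBaseChange L (modularFunctionFieldFull N)) f = 0
    · refine ⟨0, Subring.zero_mem _, ?_⟩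
      rw [h0, inv_zero]
      exact map_zero (GaussInt.gaussRes A (laurentBaseChange L (modularFunctionFieldFull N)))
    · exact ⟨f⁻¹, GaussInt.inv_mem_gaussSub hf h0, GaussInt.gaussResFun_inv hf h0⟩

end Surj

end

end Fermat.Agent.GaussVal
end MergeWrap_Lib_GaussVal_ResField

section MergeWrap_Lib_IgusaDeg_UBar -- from Lib/IgusaDeg/UBar.lean

set_option autoImplicit false

namespace Fermat.Agent.IgusaDeg

open Polynomial ModularCurve Fermat.Agent.S28 IntermediateField

noncomputable section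

theorem wp10_mk_eq_muSeries (R : Type*) [CommRing R] (a : ℤ) (E : PowerSeries ℤ) :
    wp10_mk R a E = muSeries R a E := rfl

theorem thmA_deltaQ_eq : thmA_deltaQ = wp10_DeltaF ℚ := rfl

/-- The two definitions of the formal unit over `ℚ` (helper78's and helper48's) agree. -/
theorem thmA_formalU_eq (N : ℕ) (hN : N ≠ 0) : thmA_formalU N = wp10_formalU N := by
  unfold thmA_formalU thmA_formalQuot wp10_formalU wp10_formalUK
  rw [thmA_deltaQ_eq, inv_pow, zpow_neg, zpow_natCast]
  congr 1
  refine Finset.prod_congr rfl fun δ hδ => ?_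
  have : NeZero δ := ⟨wp3b_ne_zero_of_mem_unitSet hN hδ⟩
  rw [thmA_deltaAtQ_of_ne_zero, wp10_qExp_apply, thmA_deltaQ_eq]

/-- The formal unit over `ℚ` is `q^e · E` with explicit `e`, `E`. -/
theorem thmA_formalU_eq_muSeries (N : ℕ) (hN : N ≠ 0) :
    thmA_formalU N =
      muSeries ℚ (∑ δ ∈ unitSet N, unitM N δ * (δ : ℤ) - unitPhi N) (wp10_formalE N) := by
  rw [thmA_formalU_eq N hN, wp10_formalU_eq_mk N hN, wp10_mk_eq_muSeries]

/-- Any presentation `q^a E` of the formal unit over `ℚ` gives the formal unit over `k`. -/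
theorem muSeries_eq_formalUK (k : Type*) [Field k] (N : ℕ) (hN : N ≠ 0) (a : ℤ)
    (E : PowerSeries ℤ) (hu : thmA_formalU N = muSeries ℚ a E) :
    muSeries k a E = wp10_formalUK k N := by
  have h3 : muSeries ℤ a E =
      muSeries ℤ (∑ δ ∈ unitSet N, unitM N δ * (δ : ℤ) - unitPhi N) (wp10_formalE N) := by
    apply coeffMap_injective (RingHom.injective_int (Int.castRingHom ℚ))
    rw [coeffMap_muSeries, coeffMap_muSeries, ← hu, thmA_formalU_eq_muSeries N hN]
  rw [← coeffMap_muSeries (Int.castRingHom k), h3, coeffMap_muSeries, wp10_formalUK_eq_mk N hN,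
    wp10_mk_eq_muSeries]

/-- **`ū ∈ F_k`**: the reduction of the canonical unit lies in `k(j(q^d) : d ∣ N)`. -/
theorem ubar_mem (k : Type*) [Field k] [PerfectField k] (N : ℕ) [NeZero N] (hNk : (N : k) ≠ 0)
    (a : ℤ) (E : PowerSeries ℤ) (hu : thmA_formalU N = muSeries ℚ a E) :
    muSeries k a E ∈ modularFunctionFieldFullC k N := by
  rw [muSeries_eq_formalUK k N (NeZero.ne N) a E hu]
  exact formalUK_mem_full k N hNk

/-- In characteristic `0`: the canonical unit lies in `ℚ(j(q^d) : d ∣ N)`. -/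
theorem thmA_formalU_mem (N : ℕ) [NeZero N] :
    thmA_formalU N ∈ modularFunctionFieldFull N := by
  have h := formalUK_mem_full ℚ N (by exact_mod_cast NeZero.ne N)
  rw [thmA_formalU_eq N (NeZero.ne N)]
  exact h

end

end Fermat.Agent.IgusaDeg
end MergeWrap_Lib_IgusaDeg_UBar

section MergeWrap_Lib_GaussVal_R3Final -- from Lib/GaussVal/R3Final.lean

set_option autoImplicit false

namespace Fermat.Agent.GaussVal

open UpperHalfPlane ModularForm MatrixGroups EisensteinSeries Polynomial SlashInvariantForm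
open Fermat.Agent.S23 ModularCurve
open Fermat.Agent.S28 Fermat.Agent.S28.QExp IntermediateField

noncomputable section

variable {L : Type*} [Field L] [Algebra ℚ L]

section General

variable (A : ValuationSubring L) (ℓ : ℕ) [Fact ℓ.Prime] (N : ℕ)

omit [Algebra ℚ L] in
/-- `N` is invertible in the residue field of a valuation ring over `ℓ ∤ N`. -/
theorem natCast_residue_ne_zero (hA : (ℓ : L) ∈ A.nonunits) (hℓN : ¬ ℓ ∣ N) :
    ((N : ℕ) : IsLocalRing.ResidueField A) ≠ 0 := by
  have hcop : N.Coprime ℓ := ((Nat.Prime.coprime_iff_not_dvd Fact.out).mpr hℓN).symm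
  have hu := natCast_isUnit_of_coprime A ℓ hA hcop
  have h := hu.map (IsLocalRing.residue A)
  rw [map_natCast] at h
  exact h.ne_zero

variable [NeZero N] [PerfectField (IsLocalRing.ResidueField A)]

/-- The explicit modular Gauss data, together with `ū ∈ F_k`. -/
theorem exists_modData_full (hA : (ℓ : L) ∈ A.nonunits) (hℓN : ¬ ℓ ∣ N) :
    ∃ D : ModData A N, D.n = Fintype.card (Q N) ∧
      thmA_formalU N = unitSeries ℚ D.a D.E ∧
      D.a = (((unitPhi N * (Fintype.card (Q N) - 1) : ℕ) : ℤ)) ∧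
      D.u (IsLocalRing.ResidueField A) ∈
        modularFunctionFieldFullC (IsLocalRing.ResidueField A) N := by
  obtain ⟨D, hn, hu, ha⟩ := exists_modData_explicit A ℓ N hA hℓN
  refine ⟨D, hn, hu, ha, ?_⟩
  exact Fermat.Agent.IgusaDeg.ubar_mem (IsLocalRing.ResidueField A) N
    (natCast_residue_ne_zero A ℓ N hA hℓN) D.a D.E hu

/-- **(R3a), unconditional**: residues of the Gauss ring of `F_L` lie in `F_k`. -/
theorem gaussResFun_mem_fullC_final (hA : (ℓ : L) ∈ A.nonunits) (hℓN : ¬ ℓ ∣ N) :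
    ∀ f ∈ GaussInt.gaussSub A (laurentBaseChange L (modularFunctionFieldFull N)),
      GaussInt.gaussResFun A (laurentBaseChange L (modularFunctionFieldFull N)) f ∈
        modularFunctionFieldFullC (IsLocalRing.ResidueField A) N := by
  obtain ⟨D, -, -, -, hub⟩ := exists_modData_full A ℓ N hA hℓN
  intro f hf
  exact D.gaussResFun_mem_fullC hub hf

/-- **(R3a)** for integral series: the reduction of an integral series of `F_L` lies in `F_k`. -/
theorem coeffMap_residue_mem_fullC (hA : (ℓ : L) ∈ A.nonunits) (hℓN : ¬ ℓ ∣ N)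
    (Y : LaurentSeries A)
    (hY : coeffMap A.subtype Y ∈ laurentBaseChange L (modularFunctionFieldFull N)) :
    coeffMap (IsLocalRing.residue A) Y ∈
      modularFunctionFieldFullC (IsLocalRing.ResidueField A) N := by
  obtain ⟨D, -, -, -, hub⟩ := exists_modData_full A ℓ N hA hℓN
  exact D.red_mem_fullC hub Y hY

/-- **(R3)**: the image of the residue map of the Gauss ring of `F_L` is exactly `F_k`. -/
theorem range_gaussRes_eq (hA : (ℓ : L) ∈ A.nonunits) (hℓN : ¬ ℓ ∣ N) :
    Set.range (GaussInt.gaussRes A (laurentBaseChange L (modularFunctionFieldFull N))) =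
      (modularFunctionFieldFullC (IsLocalRing.ResidueField A) N :
        Set (LaurentSeries (IsLocalRing.ResidueField A))) := by
  ext z
  constructor
  · rintro ⟨f, rfl⟩
    rw [GaussInt.gaussRes_apply]
    exact gaussResFun_mem_fullC_final A ℓ N hA hℓN _ f.2
  · intro hz
    obtain ⟨f, hf, rfl⟩ := exists_gaussResFun_eq A N hz
    exact ⟨⟨f, hf⟩, GaussInt.gaussRes_apply _⟩

/-- `k(j̄, ū) = F_k`: the residue function field is generated by the reductions of `j` and of the
canonical unit. -/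
theorem adjoin_jbar_ubar_eq_fullC (hA : (ℓ : L) ∈ A.nonunits) (hℓN : ¬ ℓ ∣ N) :
    ∃ (a : ℤ) (E : PowerSeries ℤ), thmA_formalU N = unitSeries ℚ a E ∧
      adjoin (IsLocalRing.ResidueField A)
        ({jqModC (IsLocalRing.ResidueField A), unitSeries (IsLocalRing.ResidueField A) a E} :
          Set (LaurentSeries (IsLocalRing.ResidueField A))) =
      modularFunctionFieldFullC (IsLocalRing.ResidueField A) N := by
  obtain ⟨D, -, hu, -, hub⟩ := exists_modData_full A ℓ N hA hℓN
  exact ⟨D.a, D.E, hu, D.adjoin_eq_fullC hub⟩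

end General

section AlgClosed

variable [IsAlgClosed L] (A : ValuationSubring L) (ℓ : ℕ) (N : ℕ) [NeZero N]

/-- **(R3a)** for `L` algebraically closed, in the shape of the hypothesis `hR3` of
`GaussInt.gaussValResTo`. -/
theorem gaussResFun_mem_fullC_of_isAlgClosed (hℓ : ℓ.Prime) (hA : A.LiesOverPrime ℓ)
    (hℓN : ¬ ℓ ∣ N) :
    ∀ f ∈ GaussInt.gaussSub A (laurentBaseChange L (modularFunctionFieldFull N)),
      GaussInt.gaussResFun A (laurentBaseChange L (modularFunctionFieldFull N)) f ∈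
        modularFunctionFieldFullC (IsLocalRing.ResidueField A) N := by
  have : Fact ℓ.Prime := ⟨hℓ⟩
  have : IsAlgClosed (IsLocalRing.ResidueField A) :=
    Fermat.Agent.FrobTrace.isAlgClosed_residueField A
  exact gaussResFun_mem_fullC_final A ℓ N hA hℓN

omit [IsAlgClosed L] [NeZero N] in
/-- **(R3b)** in the shape of the hypothesis `hsurj` of `GaussInt.gaussValResTo_surjective`. -/
theorem exists_gaussResFun_eq_of_mem :
    ∀ y ∈ modularFunctionFieldFullC (IsLocalRing.ResidueField A) N,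
      ∃ f ∈ GaussInt.gaussSub A (laurentBaseChange L (modularFunctionFieldFull N)),
        GaussInt.gaussResFun A (laurentBaseChange L (modularFunctionFieldFull N)) f = y :=
  fun _ hy => exists_gaussResFun_eq A N hy

/-- **(R3)** for `L` algebraically closed. -/
theorem range_gaussRes_eq_of_isAlgClosed (hℓ : ℓ.Prime) (hA : A.LiesOverPrime ℓ)
    (hℓN : ¬ ℓ ∣ N) :
    Set.range (GaussInt.gaussRes A (laurentBaseChange L (modularFunctionFieldFull N))) =
      (modularFunctionFieldFullC (IsLocalRing.ResidueField A) N :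
        Set (LaurentSeries (IsLocalRing.ResidueField A))) := by
  have : Fact ℓ.Prime := ⟨hℓ⟩
  have : IsAlgClosed (IsLocalRing.ResidueField A) :=
    Fermat.Agent.FrobTrace.isAlgClosed_residueField A
  exact range_gaussRes_eq A ℓ N hA hℓN

end AlgClosed

end

end Fermat.Agent.GaussVal
end MergeWrap_Lib_GaussVal_R3Final
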