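import Mathlib
import Fermat.Agent.MU.Lib.GaussVal.R3Final

section MergeWrap_Lib_GaussVal_Degree -- from Lib/GaussVal/Degree.lean

set_option autoImplicit false

namespace Fermat.Agent.GaussVal

open UpperHalfPlane ModularForm MatrixGroups EisensteinSeries Polynomial SlashInvariantForm
open Fermat.Agent.S23 ModularCurve
open Fermat.Agent.S28 Fermat.Agent.S28.QExp IntermediateField

noncomputable section

section Abstract

variable {k Fa : Type*} [Field k] [Field Fa] [Algebra k Fa] (ĵ û : Fa)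

/-- `k[X] → Fa`, `X ↦ ĵ` -/
def aev1 : k[X] →+* Fa := (Polynomial.aeval ĵ : k[X] →ₐ[k] Fa).toRingHom

/-- `k[X][Y] → Fa`, `X ↦ ĵ`, `Y ↦ û` -/
def aev2 : k[X][X] →+* Fa := Polynomial.eval₂RingHom (aev1 (k := k) ĵ) û

/-- `k[X] → k(ĵ)`, `X ↦ ĵ` -/
def aevE : k[X] →+* ↥(k⟮ĵ⟯) :=
  (Polynomial.aeval (AdjoinSimple.gen k ĵ) : k[X] →ₐ[k] ↥(k⟮ĵ⟯)).toRingHom

theorem algebraMap_aevE (p : k[X]) : algebraMap ↥(k⟮ĵ⟯) Fa (aevE ĵ p) = aev1 ĵ p := by
  show (k⟮ĵ⟯).val (Polynomial.aeval (AdjoinSimple.gen k ĵ) p) = Polynomial.aeval ĵ p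
  rw [← Polynomial.aeval_algHom_apply]
  rfl

theorem eval₂_map_aevE (P : k[X][X]) :
    (P.map (aevE ĵ)).eval₂ (algebraMap ↥(k⟮ĵ⟯) Fa) û = aev2 ĵ û P := by
  rw [Polynomial.eval₂_map]
  have : (algebraMap ↥(k⟮ĵ⟯) Fa).comp (aevE ĵ) = aev1 (k := k) ĵ :=
    RingHom.ext fun p => algebraMap_aevE ĵ p
  rw [this]
  rfl

theorem aev1_injective_of_indep {n : ℕ} (hn : 0 < n)
    (hind : ∀ P : k[X][X], P.natDegree < n → aev2 ĵ û P = 0 → P = 0) :
    Function.Injective (aev1 (k := k) ĵ) := by
  rw [injective_iff_map_eq_zero]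
  intro g hg
  have := hind (C g) (by rw [natDegree_C]; exact hn) (by
    show Polynomial.eval₂ (aev1 ĵ) û (C g) = 0
    rw [Polynomial.eval₂_C]; exact hg)
  exact C_eq_zero.mp this

/-- clearing denominators: every polynomial over `k(ĵ)` becomes a polynomial over `k[ĵ]` after
multiplication by a nonzero element of `k[ĵ]`. -/
theorem exists_clear_denom (q : (↥(k⟮ĵ⟯))[X]) :
    ∃ s : k[X], s ≠ 0 ∧ ∃ P : k[X][X], P.map (aevE ĵ) = C (aevE ĵ s) * q := by
  induction q using Polynomial.induction_on' with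
  | add q₁ q₂ h₁ h₂ =>
    obtain ⟨s₁, hs₁, P₁, hP₁⟩ := h₁
    obtain ⟨s₂, hs₂, P₂, hP₂⟩ := h₂
    refine ⟨s₁ * s₂, mul_ne_zero hs₁ hs₂, C s₂ * P₁ + C s₁ * P₂, ?_⟩
    rw [Polynomial.map_add, Polynomial.map_mul, Polynomial.map_mul, Polynomial.map_C,
      Polynomial.map_C, hP₁, hP₂, map_mul, C_mul]
    ring
  | monomial i e =>
    obtain ⟨r, s, hrs⟩ := (IntermediateField.mem_adjoin_simple_iff k (e : Fa)).mp e.2
    by_cases hs : Polynomial.aeval ĵ s = 0
    · have he : e = 0 := by
        apply Subtype.ext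
        rw [hrs, hs, div_zero]; rfl
      refine ⟨1, one_ne_zero, 0, ?_⟩
      rw [he, Polynomial.map_zero, monomial_zero_right, mul_zero]
    · have hs0 : s ≠ 0 := by
        rintro rfl
        exact hs (map_zero _)
      refine ⟨s, hs0, monomial i r, ?_⟩
      rw [Polynomial.map_monomial, C_mul_monomial]
      congr 1
      apply Subtype.ext
      show algebraMap ↥(k⟮ĵ⟯) Fa (aevE ĵ r) = algebraMap ↥(k⟮ĵ⟯) Fa (aevE ĵ s * e)
      rw [map_mul, algebraMap_aevE, algebraMap_aevE]
      show Polynomial.aeval ĵ r = Polynomial.aeval ĵ s * (e : Fa)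
      rw [hrs, mul_div_cancel₀ _ hs]

/-- **abstract degree lemma**: `[Fa : k(ĵ)] = n`. -/
theorem finrank_adjoin_of_indep_abs {n : ℕ} (hn : 0 < n)
    (χ : k[X][X]) (hχm : χ.Monic) (hχd : χ.natDegree = n)
    (hχu : aev2 ĵ û χ = 0)
    (hind : ∀ P : k[X][X], P.natDegree < n → aev2 ĵ û P = 0 → P = 0)
    (hF : ∀ x : Fa, ∃ g : k[X], g ≠ 0 ∧ ∃ P : k[X][X], x * aev1 ĵ g = aev2 ĵ û P) :
    Module.finrank ↥(k⟮ĵ⟯) Fa = n := by
  classical
  have hinj := aev1_injective_of_indep ĵ û hn hind
  -- (a) integrality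
  have hχE_monic : (χ.map (aevE ĵ)).Monic := hχm.map _
  have hχE_deg : (χ.map (aevE ĵ)).natDegree = n := by
    rw [hχm.natDegree_map, hχd]
  have hχE_root : Polynomial.aeval û (χ.map (aevE ĵ)) = 0 := by
    rw [Polynomial.aeval_def, eval₂_map_aevE, hχu]
  have hint : IsIntegral ↥(k⟮ĵ⟯) û :=
    ⟨_, hχE_monic, by rw [← Polynomial.aeval_def]; exact hχE_root⟩
  -- (b) generation
  have htop : (k⟮ĵ⟯)⟮û⟯ = ⊤ := by
    rw [eq_top_iff]
    intro x _
    obtain ⟨g, hg, P, hP⟩ := hF x
    have hg' : aev1 (k := k) ĵ g ≠ 0 := fun h => hg (hinj (by rw [h, map_zero]))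
    have h1 : aev1 (k := k) ĵ g ∈ (k⟮ĵ⟯)⟮û⟯ := by
      rw [← algebraMap_aevE]
      exact IntermediateField.algebraMap_mem _ _
    have h2 : aev2 ĵ û P ∈ (k⟮ĵ⟯)⟮û⟯ := by
      rw [← eval₂_map_aevE, ← Polynomial.aeval_def]
      exact IntermediateField.algebra_adjoin_le_adjoin _ _
        (Polynomial.aeval_mem_adjoin_singleton _ _)
    have hx : x = aev2 ĵ û P / aev1 ĵ g := by
      rw [← hP, mul_div_cancel_right₀ _ hg']
    rw [hx]
    exact div_mem h2 h1
  -- (d) the degree is the degree of the minimal polynomial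
  have hfin : Module.finrank ↥(k⟮ĵ⟯) Fa = (minpoly ↥(k⟮ĵ⟯) û).natDegree := by
    rw [← IntermediateField.adjoin.finrank hint, htop, IntermediateField.finrank_top']
  rw [hfin]
  apply le_antisymm
  · rw [← hχE_deg]
    exact Polynomial.natDegree_le_of_dvd (minpoly.dvd _ _ hχE_root) hχE_monic.ne_zero
  · -- (c) lower bound
    by_contra hlt
    rw [not_le] at hlt
    obtain ⟨s, hs, P, hP⟩ := exists_clear_denom ĵ (minpoly ↥(k⟮ĵ⟯) û)
    have hφinj : Function.Injective (aevE (k := k) ĵ) := by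
      intro a b hab
      apply hinj
      rw [← algebraMap_aevE, ← algebraMap_aevE, hab]
    have hφs : aevE (k := k) ĵ s ≠ 0 := fun h => hs (hφinj (by rw [h, map_zero]))
    have hdeg : P.natDegree = (minpoly ↥(k⟮ĵ⟯) û).natDegree := by
      rw [← Polynomial.natDegree_map_eq_of_injective hφinj P, hP,
        Polynomial.natDegree_C_mul hφs]
    have hev : aev2 ĵ û P = 0 := by
      rw [← eval₂_map_aevE, hP, Polynomial.eval₂_mul, ← Polynomial.aeval_def,
        ← Polynomial.aeval_def, minpoly.aeval, mul_zero]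
    have hP0 : P = 0 := hind P (by rw [hdeg]; exact hlt) hev
    rw [hP0, Polynomial.map_zero] at hP
    rcases mul_eq_zero.mp hP.symm with h | h
    · exact hφs (C_eq_zero.mp h)
    · exact minpoly.ne_zero hint h

/-- the extension is finite (same hypotheses). -/
theorem finite_adjoin_of_indep_abs {n : ℕ} (hn : 0 < n)
    (χ : k[X][X]) (hχm : χ.Monic) (hχd : χ.natDegree = n)
    (hχu : aev2 ĵ û χ = 0)
    (hind : ∀ P : k[X][X], P.natDegree < n → aev2 ĵ û P = 0 → P = 0)
    (hF : ∀ x : Fa, ∃ g : k[X], g ≠ 0 ∧ ∃ P : k[X][X], x * aev1 ĵ g = aev2 ĵ û P) :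
    Module.Finite ↥(k⟮ĵ⟯) Fa := by
  have h := finrank_adjoin_of_indep_abs ĵ û hn χ hχm hχd hχu hind hF
  exact Module.finite_of_finrank_pos (by rw [h]; exact hn)

section Series

variable (ψ : Fa →ₐ[k] LaurentSeries k)

theorem map_aev1 (g : k[X]) : ψ (aev1 ĵ g) = pev1 (ψ ĵ) g := by
  show ψ (Polynomial.aeval ĵ g) = _
  rw [← Polynomial.aeval_algHom_apply, pev1_eq_evJ]
  rfl

theorem map_aev2 (P : k[X][X]) : ψ (aev2 ĵ û P) = pev2 (ψ ĵ) (ψ û) P := by
  show ψ.toRingHom (P.eval₂ (aev1 ĵ) û) = _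
  rw [Polynomial.hom_eval₂]
  have : ψ.toRingHom.comp (aev1 (k := k) ĵ) = pev1 (ψ ĵ) :=
    RingHom.ext fun g => map_aev1 ĵ ψ g
  rw [this]
  rfl

/-- **degree lemma** for subfields of `k((q))`. -/
theorem finrank_adjoin_of_indep {n : ℕ} (hn : 0 < n)
    (χ : k[X][X]) (hχm : χ.Monic) (hχd : χ.natDegree = n)
    (hχu : pev2 (ψ ĵ) (ψ û) χ = 0) (hind : IndepUpTo (ψ ĵ) (ψ û) n)
    (hF : ∀ x : Fa, InTL (ψ ĵ) (ψ û) (ψ x)) :
    Module.finrank ↥(k⟮ĵ⟯) Fa = n := by
  have hψ : Function.Injective ψ := ψ.toRingHom.injective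
  refine finrank_adjoin_of_indep_abs ĵ û hn χ hχm hχd ?_ ?_ ?_
  · apply hψ; rw [map_aev2, hχu, map_zero]
  · intro P hP h0
    exact hind P hP (by rw [← map_aev2, h0, map_zero])
  · intro x
    obtain ⟨g, hg, P, hP⟩ := hF x
    refine ⟨g, hg, P, ?_⟩
    apply hψ
    rw [map_mul, map_aev1, map_aev2, hP]

end Series

end Abstract

section Modular

variable {L : Type*} [Field L] [Algebra ℚ L]

namespace ModData

variable {A : ValuationSubring L} {N : ℕ} (D : ModData A N)

/-- the reduction of `χ` -/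
def χk : (IsLocalRing.ResidueField A)[X][X] := D.χ.map (mapRingHom (IsLocalRing.residue A))

/-- `χ` over `L` -/
def χL : L[X][X] := D.χ.map (mapRingHom A.subtype)

theorem χk_monic : D.χk.Monic := D.monic.map _

theorem χL_monic : D.χL.Monic := D.monic.map _

theorem χk_natDegree : D.χk.natDegree = D.n := by
  rw [χk, D.monic.natDegree_map, D.natDegree_eq]

theorem χL_natDegree : D.χL.natDegree = D.n := by
  rw [χL, D.monic.natDegree_map, D.natDegree_eq]

theorem χk_root : pev2 (jqModC (IsLocalRing.ResidueField A)) (D.u (IsLocalRing.ResidueField A))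
    D.χk = 0 := by
  have h := congrArg (coeffMap (IsLocalRing.residue A)) D.root'
  rw [coeffMap_pev2, red_jA, red_uA, map_zero] at h
  exact h

theorem χL_root : pev2 (jqModC L) (D.u L) D.χL = 0 := by
  have h := congrArg (coeffMap A.subtype) D.root'
  rw [coeffMap_pev2, coeffMap_jA, coeffMap_uA, map_zero] at h
  exact h

/-- `1, u, …, u^(n-1)` are independent over `L[j]` (lift of the independence over `k[j̄]`). -/
theorem hindL : IndepUpTo (jqModC L) (D.u L) D.n := by
  intro P hP h0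
  by_contra hne
  obtain ⟨c, P₀, hc, hres, heq⟩ := (vTriple_valuationSubring A).nrm2 P hne
  have hdeg : P₀.natDegree < D.n := by
    have h1 : (P₀.map (mapRingHom A.subtype)).natDegree = P₀.natDegree :=
      Polynomial.natDegree_map_eq_of_injective
        (Polynomial.map_injective _ Subtype.val_injective) P₀
    rw [← h1, ← heq, natDegree_CC_mul hc]
    exact hP
  have h1 : pev2 (jqModC A) (D.u A) P₀ = 0 := by
    apply coeffMap_injective (f := A.subtype) Subtype.val_injective
    rw [coeffMap_pev2, coeffMap_jA, coeffMap_uA, ← heq, map_mul, h0, mul_zero, map_zero]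
  apply hres
  apply D.hind
  · exact lt_of_le_of_lt natDegree_map_le hdeg
  · have h2 := congrArg (coeffMap (IsLocalRing.residue A)) h1
    rw [coeffMap_pev2, red_jA, red_uA, map_zero] at h2
    exact h2

include D in
theorem hinjL : Function.Injective (pev1 (jqModC L)) :=
  pev1_injective_of_indep D.hn D.hindL

end ModData

end Modular

section Degree

variable {L : Type*} [Field L] [Algebra ℚ L] {A : ValuationSubring L} {N : ℕ}

set_option synthInstance.maxHeartbeats 400000 in
set_option maxHeartbeats 1000000 in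
/-- `[F_k : k(j̄)] = n` for modular Gauss data with `ū ∈ F_k`. -/
theorem ModData.finrank_fullC (D : ModData A N)
    (hub : D.u (IsLocalRing.ResidueField A) ∈
      modularFunctionFieldFullC (IsLocalRing.ResidueField A) N)
    (x : ↥(modularFunctionFieldFullC (IsLocalRing.ResidueField A) N))
    (hx : (x : LaurentSeries (IsLocalRing.ResidueField A)) =
      jqModC (IsLocalRing.ResidueField A)) :
    Module.finrank ↥((IsLocalRing.ResidueField A)⟮x⟯)
      ↥(modularFunctionFieldFullC (IsLocalRing.ResidueField A) N) = D.n := by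
  refine finrank_adjoin_of_indep x ⟨_, hub⟩
    (modularFunctionFieldFullC (IsLocalRing.ResidueField A) N).val D.hn D.χk D.χk_monic
    D.χk_natDegree ?_ ?_ ?_
  · show pev2 (x : LaurentSeries (IsLocalRing.ResidueField A)) _ _ = 0
    rw [hx]; exact D.χk_root
  · show IndepUpTo (x : LaurentSeries (IsLocalRing.ResidueField A)) _ _
    rw [hx]; exact D.hind
  · intro y
    show InTL (x : LaurentSeries (IsLocalRing.ResidueField A)) _
      (y : LaurentSeries (IsLocalRing.ResidueField A))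
    rw [hx]
    apply inTL_of_mem_adjoin _ _ D.hinjk D.χk D.χk_monic D.χk_root
    rw [D.adjoin_eq_fullC hub]
    exact y.2

set_option synthInstance.maxHeartbeats 400000 in
set_option maxHeartbeats 1000000 in
/-- `[F_L : L(j)] = n` for modular Gauss data with `u ∈ F_L`. -/
theorem ModData.finrank_fullL (D : ModData A N)
    (hu : D.u L ∈ laurentBaseChange L (modularFunctionFieldFull N))
    (x : ↥(laurentBaseChange L (modularFunctionFieldFull N)))
    (hx : (x : LaurentSeries L) = jqModC L) :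
    Module.finrank ↥(L⟮x⟯) ↥(laurentBaseChange L (modularFunctionFieldFull N)) = D.n := by
  refine finrank_adjoin_of_indep x ⟨_, hu⟩
    (laurentBaseChange L (modularFunctionFieldFull N)).val D.hn D.χL D.χL_monic
    D.χL_natDegree ?_ ?_ ?_
  · show pev2 (x : LaurentSeries L) _ _ = 0
    rw [hx]; exact D.χL_root
  · show IndepUpTo (x : LaurentSeries L) _ _
    rw [hx]; exact D.hindL
  · intro y
    show InTL (x : LaurentSeries L) _ (y : LaurentSeries L)
    rw [hx]
    exact D.le _ y.2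

end Degree

section Final

variable {L : Type*} [Field L] [Algebra ℚ L] (A : ValuationSubring L) (ℓ : ℕ) [Fact ℓ.Prime]
  (N : ℕ) [NeZero N]

/-- the canonical unit over `L` lies in `F_L`. -/
theorem unitSeries_mem_fullL (a : ℤ) (E : PowerSeries ℤ)
    (hu : thmA_formalU N = unitSeries ℚ a E) :
    unitSeries L a E ∈ laurentBaseChange L (modularFunctionFieldFull N) := by
  have h := coeffEmb_mem_laurentBaseChange L (Fermat.Agent.IgusaDeg.thmA_formalU_mem N)
  rw [hu] at h
  have e : coeffEmb L (unitSeries ℚ a E) = unitSeries L a E := coeffMap_unitSeries _ _ _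
  rwa [e] at h

set_option synthInstance.maxHeartbeats 400000 in
set_option maxHeartbeats 1000000 in
/-- **DEGREE, characteristic `0`**: `[F_L : L(j)] = #(SL₂(ℤ)/Γ₀(N))` as soon as `L` has a valuation
ring over a prime `ℓ ∤ N` with perfect residue field. -/
theorem finrank_fullL [PerfectField (IsLocalRing.ResidueField A)]
    (hA : (ℓ : L) ∈ A.nonunits) (hℓN : ¬ ℓ ∣ N)
    (x : ↥(laurentBaseChange L (modularFunctionFieldFull N)))
    (hx : (x : LaurentSeries L) = jqModC L) :
    Module.finrank ↥(L⟮x⟯) ↥(laurentBaseChange L (modularFunctionFieldFull N)) =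
      Fintype.card (Q N) := by
  obtain ⟨D, hn, hu, -, -⟩ := exists_modData_full A ℓ N hA hℓN
  rw [← hn]
  exact D.finrank_fullL (unitSeries_mem_fullL N D.a D.E hu) x hx

set_option synthInstance.maxHeartbeats 400000 in
set_option maxHeartbeats 1000000 in
/-- **DEGREE, characteristic `ℓ`**: `[F_k : k(j̄)] = #(SL₂(ℤ)/Γ₀(N))` for the residue field `k` of a
valuation ring over `ℓ ∤ N`. -/
theorem finrank_fullC [PerfectField (IsLocalRing.ResidueField A)]
    (hA : (ℓ : L) ∈ A.nonunits) (hℓN : ¬ ℓ ∣ N)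
    (x : ↥(modularFunctionFieldFullC (IsLocalRing.ResidueField A) N))
    (hx : (x : LaurentSeries (IsLocalRing.ResidueField A)) =
      jqModC (IsLocalRing.ResidueField A)) :
    Module.finrank ↥((IsLocalRing.ResidueField A)⟮x⟯)
      ↥(modularFunctionFieldFullC (IsLocalRing.ResidueField A) N) = Fintype.card (Q N) := by
  obtain ⟨D, hn, -, -, hub⟩ := exists_modData_full A ℓ N hA hℓN
  rw [← hn]
  exact D.finrank_fullC hub x hx

set_option synthInstance.maxHeartbeats 400000 in
set_option maxHeartbeats 1000000 in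
/-- the reduction does not change the degree over `k(j)`. -/
theorem finrank_fullC_eq_finrank_fullL [PerfectField (IsLocalRing.ResidueField A)]
    (hA : (ℓ : L) ∈ A.nonunits) (hℓN : ¬ ℓ ∣ N)
    (x : ↥(modularFunctionFieldFullC (IsLocalRing.ResidueField A) N))
    (hx : (x : LaurentSeries (IsLocalRing.ResidueField A)) =
      jqModC (IsLocalRing.ResidueField A))
    (y : ↥(laurentBaseChange L (modularFunctionFieldFull N)))
    (hy : (y : LaurentSeries L) = jqModC L) :
    Module.finrank ↥((IsLocalRing.ResidueField A)⟮x⟯)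
      ↥(modularFunctionFieldFullC (IsLocalRing.ResidueField A) N) =
    Module.finrank ↥(L⟮y⟯) ↥(laurentBaseChange L (modularFunctionFieldFull N)) := by
  rw [finrank_fullC A ℓ N hA hℓN x hx, finrank_fullL A ℓ N hA hℓN y hy]

end Final

section AlgClosedDeg

variable {L : Type*} [Field L] [Algebra ℚ L] [IsAlgClosed L] (A : ValuationSubring L)
  (ℓ : ℕ) (N : ℕ) [NeZero N]

set_option synthInstance.maxHeartbeats 400000 in
set_option maxHeartbeats 1000000 in
/-- **DEGREE, characteristic `ℓ`**, `L` algebraically closed. -/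
theorem finrank_fullC_of_isAlgClosed (hℓ : ℓ.Prime) (hA : A.LiesOverPrime ℓ) (hℓN : ¬ ℓ ∣ N)
    (x : ↥(modularFunctionFieldFullC (IsLocalRing.ResidueField A) N))
    (hx : (x : LaurentSeries (IsLocalRing.ResidueField A)) =
      jqModC (IsLocalRing.ResidueField A)) :
    Module.finrank ↥((IsLocalRing.ResidueField A)⟮x⟯)
      ↥(modularFunctionFieldFullC (IsLocalRing.ResidueField A) N) = Fintype.card (Q N) := by
  have : Fact ℓ.Prime := ⟨hℓ⟩
  have : IsAlgClosed (IsLocalRing.ResidueField A) :=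
    Fermat.Agent.FrobTrace.isAlgClosed_residueField A
  exact finrank_fullC A ℓ N hA hℓN x hx

set_option synthInstance.maxHeartbeats 400000 in
set_option maxHeartbeats 1000000 in
/-- **DEGREE, characteristic `0`**, `L` algebraically closed. -/
theorem finrank_fullL_of_isAlgClosed (hℓ : ℓ.Prime) (hA : A.LiesOverPrime ℓ) (hℓN : ¬ ℓ ∣ N)
    (x : ↥(laurentBaseChange L (modularFunctionFieldFull N)))
    (hx : (x : LaurentSeries L) = jqModC L) :
    Module.finrank ↥(L⟮x⟯) ↥(laurentBaseChange L (modularFunctionFieldFull N)) =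
      Fintype.card (Q N) := by
  have : Fact ℓ.Prime := ⟨hℓ⟩
  have : IsAlgClosed (IsLocalRing.ResidueField A) :=
    Fermat.Agent.FrobTrace.isAlgClosed_residueField A
  exact finrank_fullL A ℓ N hA hℓN x hx

end AlgClosedDeg

end

end Fermat.Agent.GaussVal
end MergeWrap_Lib_GaussVal_Degree
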